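import Fermat.Agent.CFT.Kum.Procyclic
import Fermat.Agent.CFT.Bridge.Levels
import Fermat.Agent.TW.InertiaField
import Fermat.Agent.GalRep.Cyclo
import Fermat.Agent.Frob.Exists

/-!
# Unramified classes are locally trivial

`isCob_of_unramified` : let `A` be a place of `ℚ̄` above `q`, `J : D →* GQ` a homomorphism with image
of finite index in the decomposition group of `A`.  A two-cocycle `D × D → ZMod p` which factors
through a normal level `W₀` of `GQ` containing the inertia group of `A` is a coboundary.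
-/

set_option autoImplicit false
set_option linter.unusedSectionVars false

namespace Fermat.Agent.CFT.Kum

open Fermat.Agent.PT KumSet Fermat.Agent.CFT.Bridge Fermat.Agent.Frob

abbrev Qb := AlgebraicClosure ℚ
abbrev GQb := AlgebraicClosure ℚ ≃ₐ[ℚ] AlgebraicClosure ℚ

/-- The subgroup fixing all `M`-th roots of unity. -/
def rootsFix (M : ℕ) : Subgroup GQb where
  carrier := {g | ∀ x : Qb, x ^ M = 1 → g x = x}
  mul_mem' {a b} ha hb x hx := by
    have h1 : (a * b) x = a (b x) := rfl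
    rw [h1, hb x hx, ha x hx]
  one_mem' x _ := rfl
  inv_mem' {a} ha x hx := by
    have h1 := ha x hx
    have h2 : a⁻¹ (a x) = x := a.symm_apply_apply x
    rwa [h1] at h2

instance rootsFix_normal (M : ℕ) : (rootsFix M).Normal where
  conj_mem n hn g x hx := by
    have h1 : (g * n * g⁻¹) x = g (n (g⁻¹ x)) := rfl
    have h2 : (g⁻¹ x) ^ M = 1 := by rw [← map_pow, hx, map_one]
    rw [h1, hn _ h2]
    exact g.apply_symm_apply x

lemma rootsFix_mem {M : ℕ} (hM : M ≠ 0) : rootsFix M ∈ galLevels ℚ Qb := by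
  have : NeZero (M : Qb) := ⟨Nat.cast_ne_zero.2 hM⟩
  have : NeZero M := ⟨hM⟩
  obtain ⟨ζ, hζ⟩ : ∃ ζ : Qb, IsPrimitiveRoot ζ M := HasEnoughRootsOfUnity.exists_primitiveRoot _ _
  obtain ⟨W, hW, h⟩ := (fieldLevel_galLevels ℚ Qb).exists_fix ζ
  refine LevelSys.mono hW fun g hg x hx => ?_
  obtain ⟨i, -, rfl⟩ := hζ.eq_pow_of_pow_eq_one hx
  have h1 : g ζ = ζ := h g hg
  rw [map_pow, h1]

lemma dvd_orderOf {q n M : ℕ} (hq : q.Prime) (hM : M = q ^ n - 1) (hn : n ≠ 0)
    {A : ValuationSubring Qb} (hA : A.LiesOverPrime q) {φ : GQb} (hφ : A.IsFrobeniusAt φ q) :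
    n ∣ orderOf (QuotientGroup.mk' (rootsFix M) φ) := by
  have hq2 := hq.two_le
  have h1n : 1 < q ^ n := Nat.one_lt_pow hn hq.one_lt
  have hM0 : M ≠ 0 := by omega
  have hcop : Nat.Coprime q M := by
    rw [hM]
    have h2 : Nat.Coprime (q ^ n) (q ^ n - 1) := by
      rw [Nat.coprime_comm]
      exact (Nat.coprime_self_sub_left h1n.le).2 (Nat.coprime_one_left _)
    exact Nat.Coprime.coprime_dvd_left (dvd_pow_self q hn) h2
  have : NeZero (M : Qb) := ⟨Nat.cast_ne_zero.2 hM0⟩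
  have : NeZero M := ⟨hM0⟩
  obtain ⟨ζ, hζ⟩ : ∃ ζ : Qb, IsPrimitiveRoot ζ M := HasEnoughRootsOfUnity.exists_primitiveRoot _ _
  set j := orderOf (QuotientGroup.mk' (rootsFix M) φ) with hj
  have h1 : φ ^ j ∈ rootsFix M := by
    have h2 : QuotientGroup.mk' (rootsFix M) φ ^ j = 1 := pow_orderOf_eq_one _
    rw [← map_pow] at h2
    exact (QuotientGroup.eq_one_iff _).1 h2
  have h3 : ∀ i : ℕ, (φ ^ i) ζ = ζ ^ (q ^ i) := by
    intro i
    induction i with
    | zero => simp
    | succ i ih =>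
      have h4 : (φ ^ (i + 1)) ζ = φ ((φ ^ i) ζ) := by
        rw [pow_succ']
        rfl
      rw [h4, ih, map_pow,
        Fermat.Agent.GalRep.frobenius_rootOfUnity hA hcop hM0 hφ hζ.pow_eq_one, ← pow_mul,
        pow_succ, mul_comm (q ^ i)]
  have h5 : ζ ^ (q ^ j) = ζ := by
    rw [← h3]
    exact h1 ζ hζ.pow_eq_one
  have hpos : 0 < q ^ j := pow_pos hq.pos j
  have h6 : ζ ^ (q ^ j - 1) = 1 := by
    have hζ0 : ζ ≠ 0 := hζ.ne_zero hM0
    apply mul_right_cancel₀ hζ0
    rw [← pow_succ, Nat.sub_add_cancel hpos, h5, one_mul]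
  have h7 : q ^ n - 1 ∣ q ^ j - 1 := by
    rw [← hM]
    exact hζ.dvd_of_pow_eq_one _ h6
  have h8 := Nat.pow_sub_one_gcd_pow_sub_one q n j
  rw [Nat.gcd_eq_left h7] at h8
  have h9 : q ^ n = q ^ (n.gcd j) := by
    have := pow_pos hq.pos (n.gcd j)
    omega
  have h10 := Nat.pow_right_injective hq2 h9
  have h11 : n.gcd j ∣ j := Nat.gcd_dvd_right n j
  rwa [← h10] at h11

variable {p : ℕ} [hp : Fact p.Prime]

theorem isCob_of_unramified {q : ℕ} (hq : q.Prime) {A : ValuationSubring Qb}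
    (hA : A.LiesOverPrime q) {D : Type*} [Group D] {𝓛' : LevelSys D} (J : D →* GQb)
    (hJ : (galLevels ℚ Qb).Compat J 𝓛') (hJA : ∀ d, J d ∈ A.decompositionSubgroup ℚ)
    (hfin : J.range.relIndex (A.decompositionSubgroup ℚ) ≠ 0) (W₀ : Subgroup GQb)
    [hW₀n : W₀.Normal] (hW₀ : W₀ ∈ galLevels ℚ Qb) (hI : A.inertiaSubgroupIn ℚ ≤ W₀)
    {c : D × D → ZMod p}
    (hc0 : ∀ g h u v, J u ∈ W₀ → J v ∈ W₀ → c (g * u, h * v) = c (g, h))
    (hcc : ∀ g h j, c (g * h, j) + c (g, h) = c (h, j) + c (g, h * j)) : IsCob 𝓛' c := by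
  classical
  set DA := A.decompositionSubgroup ℚ with hDA
  set d := J.range.relIndex DA with hd
  have hW₀' : W₀.comap J ∈ 𝓛' := hJ W₀ hW₀
  set m₀ := (W₀.comap J).index with hm₀
  have hm₀0 : m₀ ≠ 0 := (LevelSys.finiteIndex hW₀').index_ne_zero
  set N := d * m₀ with hN
  set n := p ^ N with hn
  have hn0 : n ≠ 0 := pow_ne_zero _ hp.out.ne_zero
  set M := q ^ n - 1 with hM
  have h1n : 1 < q ^ n := Nat.one_lt_pow hn0 hq.one_lt
  have hM0 : M ≠ 0 := by omega
  have hcop : Nat.Coprime q M := by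
    rw [hM]
    have h2 : Nat.Coprime (q ^ n) (q ^ n - 1) := by
      rw [Nat.coprime_comm]
      exact (Nat.coprime_self_sub_left h1n.le).2 (Nat.coprime_one_left _)
    exact Nat.Coprime.coprime_dvd_left (dvd_pow_self q hn0) h2
  have hIM : A.inertiaSubgroupIn ℚ ≤ rootsFix M := fun σ hσ x hx =>
    Fermat.Agent.GalRep.inertia_fix_rootOfUnity hA hcop hM0 hσ hx
  set W := W₀ ⊓ rootsFix M with hW
  have hW𝓛 : W ∈ galLevels ℚ Qb := LevelSys.inf_mem hW₀ (rootsFix_mem hM0)
  have hWn : W.Normal := inferInstance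
  obtain ⟨φ, hφ⟩ := exists_isFrobeniusAt hq hA
  have hφD : φ ∈ DA := hφ.mem_decompositionSubgroup
  -- cyclicity
  have hcyc : IsCyclic (D ⧸ W.comap J) := by
    have hzp : ∀ x : D, QuotientGroup.mk' W (J x) ∈ Subgroup.zpowers (QuotientGroup.mk' W φ) := by
      intro x
      obtain ⟨V, hV, hVW, hVn⟩ := LevelSys.exists_normal hW𝓛
      obtain ⟨E, hE, hEV⟩ := id hV
      obtain ⟨F, hEF, hF, hFg⟩ := Fermat.Agent.TW.exists_galois_ge E
      obtain ⟨m, i, hi, hx⟩ := Fermat.Agent.TW.exists_frob_pow_mul_inertia hq hA hφ F (hJA x)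
      have h1 : (φ ^ m * i)⁻¹ * J x ∈ F.fixingSubgroup := by
        rw [IntermediateField.mem_fixingSubgroup_iff]
        intro y hy
        have h2 : ((φ ^ m * i)⁻¹ * J x) y = (φ ^ m * i)⁻¹ (J x y) := rfl
        rw [h2, hx y hy]
        exact (φ ^ m * i).symm_apply_apply y
      have h3 : (φ ^ m * i)⁻¹ * J x ∈ W := by
        refine hVW (hEV ?_)
        exact IntermediateField.fixingSubgroup_antitone hEF h1
      have h4 : QuotientGroup.mk' W (J x) = QuotientGroup.mk' W φ ^ m := by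
        have h5 : QuotientGroup.mk' W (φ ^ m * i) = QuotientGroup.mk' W (J x) :=
          QuotientGroup.eq.2 h3
        rw [← h5, map_mul, map_pow]
        have h6 : QuotientGroup.mk' W i = 1 :=
          (QuotientGroup.eq_one_iff i).2 ⟨hI hi, hIM hi⟩
        rw [h6, mul_one]
      rw [h4]
      exact Subgroup.npow_mem_zpowers _ _
    let f : D →* Subgroup.zpowers (QuotientGroup.mk' W φ) :=
      ((QuotientGroup.mk' W).comp J).codRestrict _ hzp
    have hf : f.ker = W.comap J := by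
      ext x
      rw [MonoidHom.mem_ker, Subgroup.mem_comap]
      constructor
      · intro h
        have h1 : QuotientGroup.mk' W (J x) = 1 := congrArg Subtype.val h
        exact (QuotientGroup.eq_one_iff _).1 h1
      · intro h
        exact Subtype.ext ((QuotientGroup.eq_one_iff (J x)).2 h)
    let fl : D ⧸ W.comap J →* Subgroup.zpowers (QuotientGroup.mk' W φ) :=
      QuotientGroup.lift (W.comap J) f (fun x hx => by rw [← hf] at hx; exact hx)
    refine isCyclic_of_injective fl ?_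
    rw [injective_iff_map_eq_one]
    intro y hy
    obtain ⟨x, rfl⟩ := QuotientGroup.mk_surjective y
    have h1 : f x = 1 := hy
    rw [QuotientGroup.eq_one_iff, ← hf]
    exact h1
  -- index
  have hcard : n ∣ d * ((rootsFix M).comap J).index := by
    have h1 : n ∣ (rootsFix M).relIndex DA := by
      have h2 := dvd_orderOf hq hM hn0 hA hφ
      have h3 := Subgroup.relIndex_ker DA (QuotientGroup.mk' (rootsFix M))
      rw [QuotientGroup.ker_mk'] at h3
      rw [h3]
      refine h2.trans (Subgroup.orderOf_dvd_natCard _ ?_)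
      exact Subgroup.mem_map_of_mem _ hφD
    have hle : J.range ≤ DA := by
      rintro _ ⟨x, rfl⟩
      exact hJA x
    have h4 : (rootsFix M ⊓ J.range).relIndex J.range * J.range.relIndex DA =
        (rootsFix M ⊓ J.range).relIndex DA := Subgroup.relIndex_mul_relIndex _ _ _ inf_le_right hle
    rw [Subgroup.inf_relIndex_right, mul_comm] at h4
    rw [Subgroup.index_comap, hd, h4]
    exact h1.trans (Subgroup.relIndex_dvd_of_le_left DA inf_le_left)
  have hdvd1 : m₀ ∣ (W.comap J).index :=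
    Subgroup.index_dvd_of_le (Subgroup.comap_mono inf_le_left)
  have hdvd2 : ((rootsFix M).comap J).index ∣ (W.comap J).index :=
    Subgroup.index_dvd_of_le (Subgroup.comap_mono inf_le_right)
  have hdvd : p * m₀ ∣ (W.comap J).index := by
    obtain ⟨r, hr⟩ := hdvd1
    have h1 : p ^ N ∣ d * m₀ * r := by
      rw [mul_assoc, ← hr]
      exact hcard.trans (Nat.mul_dvd_mul_left d hdvd2)
    by_cases hpr : p ∣ r
    · obtain ⟨t, rfl⟩ := hpr
      rw [hr]
      exact ⟨t, by ring⟩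
    · exfalso
      have h2 : Nat.Coprime (p ^ N) r :=
        Nat.Coprime.pow_left N ((Nat.Prime.coprime_iff_not_dvd hp.out).2 hpr)
      have h3 : p ^ N ∣ d * m₀ := h2.dvd_of_dvd_mul_right h1
      have h4 : p ^ N ≤ d * m₀ := Nat.le_of_dvd (Nat.pos_of_ne_zero (mul_ne_zero hfin hm₀0)) h3
      have h5 : N < p ^ N := Nat.lt_pow_self hp.out.one_lt
      omega
  exact isCob_of_cyclic (W₀.comap J) (W.comap J) (hJ W hW𝓛) (Subgroup.comap_mono inf_le_left)
    hcyc hdvd (fun g h u hu v hv => hc0 g h u v hu hv) hcc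

end Fermat.Agent.CFT.Kum
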