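import Fermat.Agent.CFT.Kum.Cup
import Fermat.Agent.PT.Perm

/-!
# An abstract Hasse principle for `H²(U, ZMod p)`

If classes of the form `κ ∪ χ` (over all open subgroups) which are locally trivial are trivial,
then all locally trivial classes are trivial.
-/

set_option autoImplicit false
set_option linter.unusedSectionVars false

namespace Fermat.Agent.CFT.Kum

open Fermat.Agent.PT

section Basic

variable {G : Type*} [Group G] {𝓛 : LevelSys G} {H : Type*} [Group H] {𝓛' : LevelSys H}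
variable {p : ℕ} [hp : Fact p.Prime]

lemma compat_comap_of_comp {A B : Type*} [Group A] [Group B] {a : A →* G} {b : B →* G}
    (u : A →* B) (h : b.comp u = a) : (𝓛.comap b).Compat u (𝓛.comap a) := by
  rintro W ⟨W', hW', hle⟩
  refine ⟨W', hW', ?_⟩
  rw [← h, ← Subgroup.comap_comap]
  exact Subgroup.comap_mono hle

/-- trivial coefficients -/
abbrev ztriv (p : ℕ) (G : Type*) [Group G] : Representation (ZMod p) G (ZMod p) :=
  Representation.trivial (ZMod p) G (ZMod p)

namespace KumSet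

lemma IsCob.precomp {c : G × G → ZMod p} {u : H →* G} (hu : 𝓛.Compat u 𝓛') (hc : IsCob 𝓛 c) :
    IsCob 𝓛' (fun q => c (u q.1, u q.2)) := by
  obtain ⟨e, he, h⟩ := hc
  exact ⟨fun g => e (u g), he.precomp hu, fun g h' => by
    simp only [h, map_mul]⟩

/-- 2-cocycles with trivial coefficients -/
def IsCocy (c : G × G → ZMod p) : Prop :=
  ∀ g h j, c (g * h, j) + c (g, h) = c (h, j) + c (g, h * j)

lemma IsCocy.precomp {c : G × G → ZMod p} (hc : IsCocy c) (u : H →* G) :
    IsCocy (fun q : H × H => c (u q.1, u q.2)) := by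
  intro g h j
  simp only [map_mul]
  exact hc _ _ _

lemma IsCocy.mem_Z2 {c : G × G → ZMod p} (hcl : LC2 𝓛 c) (hc : IsCocy c) :
    c ∈ Z2 𝓛 (ztriv p G) := ⟨hcl, fun g h j => hc g h j⟩

lemma IsCocy.sub {c c' : G × G → ZMod p} (hc : IsCocy c) (hc' : IsCocy c') :
    IsCocy (fun q => c q - c' q) := by
  intro g h j
  have h1 := hc g h j
  have h2 := hc' g h j
  show c (g * h, j) - c' (g * h, j) + (c (g, h) - c' (g, h)) =
    c (h, j) - c' (h, j) + (c (g, h * j) - c' (g, h * j))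
  linear_combination h1 - h2

/-- a constant cocycle is a coboundary -/
lemma isCob_of_const {c : G × G → ZMod p} (x : ZMod p) (hc : ∀ q, c q = x) : IsCob 𝓛 c :=
  ⟨fun _ => x, LC1.const x, fun g h => by rw [hc]; ring⟩

lemma isCob_iff_mk_eq_zero {c : G × G → ZMod p} (hc : c ∈ Z2 𝓛 (ztriv p G)) :
    IsCob 𝓛 c ↔ H2mk 𝓛 (ztriv p G) ⟨c, hc⟩ = 0 := by
  rw [H2mk_eq_zero]
  rfl

/-- the constant functions -/
def constHom' (k M X : Type*) [CommRing k] [AddCommGroup M] [Module k M] : M →ₗ[k] (X → M) :=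
  LinearMap.pi fun _ => LinearMap.id

/-- Restriction to a subgroup of index prime to `p` is injective. -/
theorem isCob_of_index_coprime {U : Subgroup G} (hU : U ∈ 𝓛)
    (hidx : ¬ p ∣ U.index) {c : G × G → ZMod p} (hcl : LC2 𝓛 c) (hc : IsCocy c)
    (hcU : IsCob (𝓛.restrict U) (fun q : U × U => c (q.1, q.2))) : IsCob 𝓛 c := by
  classical
  have hfin : U.FiniteIndex := LevelSys.finiteIndex hU
  have : Fintype (G ⧸ U) := Fintype.ofFinite _
  set ρ := ztriv p G with hρ
  have hcZ : c ∈ Z2 𝓛 ρ := hc.mem_Z2 hcl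
  rw [isCob_iff_mk_eq_zero hcZ]
  let X := G ⧸ U
  let cst : ZMod p →ₗ[ZMod p] (X → ZMod p) := LinearMap.pi fun _ => LinearMap.id
  let tr : (X → ZMod p) →ₗ[ZMod p] ZMod p := ∑ x : X, LinearMap.proj x
  have htr : ∀ f : X → ZMod p, tr f = ∑ x, f x := fun f => by simp [tr]
  have hcst : Equivar ρ (funRep X ρ) cst := fun g m => rfl
  have htr' : Equivar (funRep X ρ) ρ tr := by
    intro g f
    rw [htr, htr, map_sum]
    simp only [funRep_apply]
    exact Fintype.sum_equiv (MulAction.toPerm g⁻¹) _ _ (fun x => rfl)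
  set α : H2 𝓛 ρ := H2mk 𝓛 ρ ⟨c, hcZ⟩ with hα
  -- the stabilizers
  have hstab : ∀ x : X, MulAction.stabilizer G x ∈ 𝓛 := by
    intro x
    obtain ⟨g, rfl⟩ := QuotientGroup.mk_surjective x
    obtain ⟨V, hV, hVU, hVn⟩ := LevelSys.exists_normal hU
    refine LevelSys.mono hV fun v hv => ?_
    rw [MulAction.mem_stabilizer_iff]
    change ((v * g : G) : G ⧸ U) = (g : G ⧸ U)
    rw [eq_comm, QuotientGroup.eq]
    have : g⁻¹ * (v * g) = g⁻¹ * v * g := by group
    rw [this]
    exact hVU (by simpa using hVn.conj_mem v hv g⁻¹)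
  have hx : OrbitReps G (fun _ : Unit => ((1 : G) : X)) :=
    { surj := fun y => by
        obtain ⟨g, rfl⟩ := QuotientGroup.mk_surjective y
        exact ⟨(), g, by
          change ((g * 1 : G) : G ⧸ U) = _
          rw [mul_one]⟩
      inj := fun _ _ _ _ => rfl }
  have h0 : H2coef 𝓛 cst hcst α = 0 := by
    refine sh2_injective hx hstab _ fun _ => ?_
    have hst : MulAction.stabilizer G ((1 : G) : X) = U := MulAction.stabilizer_quotient U
    rw [hα]
    unfold sh2
    rw [H2map_mk, H2map_mk, H2mk_eq_zero]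
    obtain ⟨e, he, hce⟩ := hcU
    let i : MulAction.stabilizer G ((1 : G) : X) →* U :=
      Subgroup.inclusion hst.le
    refine ⟨fun g => e (i g), he.precomp (compat_comap_of_comp i rfl), fun g h => ?_⟩
    exact hce (i g) (i h)
  have h1 : H2coef 𝓛 tr htr' (H2coef 𝓛 cst hcst α) = (Fintype.card X) • α := by
    rw [hα, ← map_nsmul, H2map_mk, H2map_mk]
    congr 1
    apply Subtype.ext
    funext q
    change tr (fun _ => c q) = Fintype.card X • c q
    rw [htr]
    simp
  rw [h0, map_zero] at h1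
  have h2 : ((Fintype.card X : ℕ) : ZMod p) ≠ 0 := by
    rw [Ne, ZMod.natCast_eq_zero_iff]
    have : Fintype.card X = U.index := by
      rw [← Nat.card_eq_fintype_card]
      rfl
    rw [this]
    exact hidx
  rw [← Nat.cast_smul_eq_nsmul (ZMod p)] at h1
  exact (smul_eq_zero.mp h1.symm).resolve_left h2

end KumSet

end Basic

section Abs

variable {G : Type*} [Group G] {𝓛 : LevelSys G} {Ω : Type*} [Field Ω] [MulSemiringAction G Ω]
variable {p : ℕ} [hp : Fact p.Prime] {U₀ : Subgroup G}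
  (K : ∀ H : Subgroup G, H ≤ U₀ → KumSet (𝓛.restrict H) Ω p)
variable {ι : Type*} {Gi : ι → Type*} [∀ i, Group (Gi i)] (𝓛i : ∀ i, LevelSys (Gi i))
  (φ : ∀ i, Gi i →* G)

namespace KumSet

/-- The local restriction of a cochain on `H` along `φ i : G_i → G`. -/
def locRes {H : Subgroup G} (c : H × H → ZMod p) (i : ι) :
    ((H.comap (φ i)) × (H.comap (φ i)) → ZMod p) :=
  fun q => c (⟨φ i q.1, q.1.2⟩, ⟨φ i q.2, q.2.2⟩)

/-- local triviality -/
def LocTriv {H : Subgroup G} (c : H × H → ZMod p) : Prop :=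
  ∀ i, IsCob ((𝓛i i).restrict (H.comap (φ i))) (locRes φ c i)

variable {𝓛i φ}

lemma LocTriv.sub {H : Subgroup G} {c c' : H × H → ZMod p} (hc : LocTriv 𝓛i φ c)
    (hc' : LocTriv 𝓛i φ c') : LocTriv 𝓛i φ (fun q => c q - c' q) :=
  fun i => (hc i).sub (hc' i)

lemma LocTriv.inclusion {H H' : Subgroup G} (h : H' ≤ H) {c : H × H → ZMod p}
    (hc : LocTriv 𝓛i φ c) :
    LocTriv 𝓛i φ (fun q : H' × H' => c (Subgroup.inclusion h q.1, Subgroup.inclusion h q.2)) := by
  intro i
  have hle : H'.comap (φ i) ≤ H.comap (φ i) := Subgroup.comap_mono h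
  exact (hc i).precomp (u := Subgroup.inclusion hle) (compat_comap_of_comp _ rfl)

lemma LocTriv.of_isCob (hφ : ∀ i, 𝓛.Compat (φ i) (𝓛i i)) {H : Subgroup G} {c : H × H → ZMod p}
    (hc : IsCob (𝓛.restrict H) c) : LocTriv 𝓛i φ c := by
  intro i
  let u : H.comap (φ i) →* H := (φ i).subgroupComap H
  refine hc.precomp (u := u) ?_
  rintro W ⟨W', hW', hle⟩
  refine ⟨W'.comap (φ i), hφ i W' hW', ?_⟩
  intro x hx
  exact hle (show ((u x : H) : G) ∈ W' from hx)

include K in
/-- The tower step of the Hasse principle. -/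
theorem hasse_tower (hφ : ∀ i, 𝓛.Compat (φ i) (𝓛i i))
    (hsym : ∀ H : Subgroup G, H ∈ 𝓛 → H ≤ U₀ → ∀ κ χ : H → ZMod p, LC1 (𝓛.restrict H) κ →
      LC1 (𝓛.restrict H) χ → (∀ g h, κ (g * h) = κ g + κ h) → (∀ g h, χ (g * h) = χ g + χ h) →
      LocTriv 𝓛i φ (cup κ χ) → IsCob (𝓛.restrict H) (cup κ χ)) (n : ℕ) :
    ∀ (U V : Subgroup G) (hVU : V ≤ U), U ≤ U₀ → U ∈ 𝓛 → V ∈ 𝓛 → (V.subgroupOf U).Normal →
      V.relIndex U = p ^ n → ∀ c : U × U → ZMod p, LC2 (𝓛.restrict U) c → IsCocy c →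
      LocTriv 𝓛i φ c →
      IsCob (𝓛.restrict V)
        (fun q : V × V => c (Subgroup.inclusion hVU q.1, Subgroup.inclusion hVU q.2)) →
      IsCob (𝓛.restrict U) c := by
  induction n with
  | zero =>
    intro U V hVU hUU₀ hU hV hn hidx c hcl hc hloc hcV
    rw [pow_zero, Subgroup.relIndex_eq_one] at hidx
    obtain rfl : V = U := le_antisymm hVU hidx
    exact hcV
  | succ n ih =>
    intro U V hVU hUU₀ hU hV hn hidx c hcl hc hloc hcV
    set V' := V.subgroupOf U with hV'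
    -- a normal subgroup of index `p`
    have hcard : Nat.card (U ⧸ V') = p ^ (n + 1) := hidx
    have hfin : Finite (U ⧸ V') :=
      Nat.finite_of_card_ne_zero (by rw [hcard]; exact pow_ne_zero _ hp.out.ne_zero)
    obtain ⟨P, hP⟩ := Sylow.exists_subgroup_card_pow_prime (G := U ⧸ V') p (n := n)
      (by rw [hcard]; exact pow_dvd_pow p (Nat.le_succ n))
    have hPi : P.index = p := by
      have h1 := P.card_mul_index
      rw [hP, hcard, pow_succ] at h1
      exact Nat.eq_of_mul_eq_mul_left (pow_pos hp.out.pos n) h1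
    have hPn : P.Normal := by
      apply Subgroup.normal_of_index_eq_minFac_card
      rw [hPi, hcard, Nat.pow_minFac (Nat.succ_ne_zero n), hp.out.minFac_eq]
    set N : Subgroup U := P.comap (QuotientGroup.mk' V') with hN
    have hNn : N.Normal := hPn.comap _
    have hNi : N.index = p := by
      rw [hN, Subgroup.index_comap_of_surjective _ (QuotientGroup.mk'_surjective V'), hPi]
    have hVN : V' ≤ N := by
      intro x hx
      rw [hN, Subgroup.mem_comap]
      have : (QuotientGroup.mk' V') x = 1 := (QuotientGroup.eq_one_iff x).mpr hx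
      rw [this]
      exact P.one_mem
    -- the character
    have hcQ : Nat.card (U ⧸ N) = p := hNi
    let e : U ⧸ N ≃* Multiplicative (ZMod p) :=
      mulEquivOfPrimeCardEq hcQ (Nat.card_zmod p)
    let χ : U →* Multiplicative (ZMod p) := e.toMonoidHom.comp (QuotientGroup.mk' N)
    have hχker : χ.ker = N := by
      ext x
      rw [MonoidHom.mem_ker]
      change e (x : U ⧸ N) = 1 ↔ _
      rw [map_eq_one_iff e e.injective, QuotientGroup.eq_one_iff]
    obtain ⟨s, hs⟩ : ∃ s, χ s = Multiplicative.ofAdd 1 := by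
      obtain ⟨y, hy⟩ := e.surjective (Multiplicative.ofAdd 1)
      obtain ⟨s, rfl⟩ := QuotientGroup.mk_surjective y
      exact ⟨s, hy⟩
    have hV'mem : V' ∈ 𝓛.restrict U := ⟨V, hV, le_rfl⟩
    have hχmem : χ.ker ∈ 𝓛.restrict U := by
      rw [hχker]
      exact LevelSys.mono hV'mem hVN
    -- the subgroup `U₁`
    set U₁ : Subgroup G := N.map U.subtype with hU₁
    have hU₁U : U₁ ≤ U := by
      rintro _ ⟨x, _, rfl⟩
      exact x.2
    have hVU₁ : V ≤ U₁ := by
      intro x hx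
      exact ⟨⟨x, hVU hx⟩, hVN (show (⟨x, hVU hx⟩ : U) ∈ V' from hx), rfl⟩
    have hU₁mem : U₁ ∈ 𝓛 := LevelSys.mono hV hVU₁
    have hU₁sub : U₁.subgroupOf U = N := by
      ext x
      rw [Subgroup.mem_subgroupOf, hU₁]
      constructor
      · rintro ⟨y, hy, hyx⟩
        have : y = x := Subtype.ext hyx
        rwa [← this]
      · intro hx
        exact ⟨x, hx, rfl⟩
    have hn₁ : (V.subgroupOf U₁).Normal := by
      refine ⟨fun x hx g => ?_⟩
      rw [Subgroup.mem_subgroupOf] at hx ⊢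
      have := hn.conj_mem (⟨x, hU₁U x.2⟩ : U) (show ((⟨x, hU₁U x.2⟩ : U) : G) ∈ V from hx)
        ⟨g, hU₁U g.2⟩
      exact this
    have hidx₁ : V.relIndex U₁ = p ^ n := by
      have h1 := Subgroup.relIndex_mul_relIndex V U₁ U hVU₁ hU₁U
      have h2 : U₁.relIndex U = p := by
        rw [Subgroup.relIndex, hU₁sub, hNi]
      rw [h2, hidx, pow_succ] at h1
      exact Nat.eq_of_mul_eq_mul_right hp.out.pos h1
    -- the restriction to `U₁` is a coboundary
    have hu₁ : (𝓛.restrict U).Compat (Subgroup.inclusion hU₁U) (𝓛.restrict U₁) :=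
      compat_comap_of_comp _ rfl
    have h1 := ih U₁ V hVU₁ (hU₁U.trans hUU₀) hU₁mem hV hn₁ hidx₁
      (fun q => c (Subgroup.inclusion hU₁U q.1, Subgroup.inclusion hU₁U q.2))
      (hcl.precomp hu₁) (hc.precomp _) (hloc.inclusion hU₁U) hcV
    -- transfer to `ker χ`
    let j : χ.ker →* U₁ :=
      { toFun := fun x => ⟨((x : U) : G), ⟨x, by rw [← hχker]; exact x.2, rfl⟩⟩
        map_one' := rfl
        map_mul' := fun _ _ => rfl }
    have hj : (𝓛.restrict U₁).Compat j ((𝓛.restrict U).restrict χ.ker) := by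
      rintro W ⟨W', hW', hle⟩
      refine ⟨W'.comap U.subtype, ⟨W', hW', le_rfl⟩, ?_⟩
      intro x hx
      exact hle (show ((j x : U₁) : G) ∈ W' from hx)
    obtain ⟨f, hf, hcf⟩ := h1.precomp hj
    obtain ⟨α, hα, hcob⟩ := exists_cup_of_res (hs := hs) (K U hUU₀) hχmem hcl hc hf
      (fun u v => hcf u v)
    -- `κ_α ∪ χ` is locally trivial
    have hloc2 : LocTriv 𝓛i φ (cup ((K U hUU₀).kum α) (cfun χ)) := by
      have h2 := hloc.sub (LocTriv.of_isCob (𝓛i := 𝓛i) hφ hcob)
      simpa using h2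
    have h3 := hsym U hU hUU₀ ((K U hUU₀).kum α) (cfun χ) (kum_lc hα) (cfun_lc hχmem)
      (kum_mul hα) (cfun_mul χ) hloc2
    have h4 := hcob.add h3
    simpa using h4

include K in
/-- **Abstract Hasse principle.** -/
theorem hasse_abstract (hφ : ∀ i, 𝓛.Compat (φ i) (𝓛i i))
    (hsym : ∀ H : Subgroup G, H ∈ 𝓛 → H ≤ U₀ → ∀ κ χ : H → ZMod p, LC1 (𝓛.restrict H) κ →
      LC1 (𝓛.restrict H) χ → (∀ g h, κ (g * h) = κ g + κ h) → (∀ g h, χ (g * h) = χ g + χ h) →
      LocTriv 𝓛i φ (cup κ χ) → IsCob (𝓛.restrict H) (cup κ χ))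
    (U : Subgroup G) (hUU₀ : U ≤ U₀) (hU : U ∈ 𝓛) (c : U × U → ZMod p) (hcl : LC2 (𝓛.restrict U) c)
    (hc : IsCocy c) (hloc : LocTriv 𝓛i φ c) : IsCob (𝓛.restrict U) c := by
  obtain ⟨V', hV', hV'n, hcV'⟩ := hcl.exists_normal
  have hfin : V'.FiniteIndex := LevelSys.finiteIndex hV'
  have hfinQ : Finite (U ⧸ V') := inferInstance
  -- Sylow subgroup
  obtain ⟨P⟩ : Nonempty (Sylow p (U ⧸ V')) := inferInstance
  have hPi : ¬ p ∣ (P : Subgroup (U ⧸ V')).index := P.not_dvd_index
  obtain ⟨n, hPn⟩ := IsPGroup.iff_card.mp P.isPGroup'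
  set W' : Subgroup U := (P : Subgroup (U ⧸ V')).comap (QuotientGroup.mk' V') with hW'
  have hW'i : ¬ p ∣ W'.index := by
    rw [hW', Subgroup.index_comap_of_surjective _ (QuotientGroup.mk'_surjective V')]
    exact hPi
  have hV'W' : V' ≤ W' := by
    intro x hx
    rw [hW', Subgroup.mem_comap]
    have : (QuotientGroup.mk' V') x = 1 := (QuotientGroup.eq_one_iff x).mpr hx
    rw [this]
    exact one_mem _
  have hW'mem : W' ∈ 𝓛.restrict U := LevelSys.mono hV' hV'W'
  apply isCob_of_index_coprime hW'mem hW'i hcl hc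
  -- subgroups of `G`
  set V : Subgroup G := V'.map U.subtype with hVdef
  set W : Subgroup G := W'.map U.subtype with hWdef
  have hVW : V ≤ W := Subgroup.map_mono hV'W'
  have hWU : W ≤ U := by
    rintro _ ⟨x, _, rfl⟩
    exact x.2
  have hmap_mem : ∀ X : Subgroup U, X ∈ 𝓛.restrict U → X.map U.subtype ∈ 𝓛 := by
    rintro X ⟨Y, hY, hYX⟩
    refine LevelSys.mono (LevelSys.inf_mem hY hU) ?_
    rintro x ⟨hxY, hxU⟩
    exact ⟨⟨x, hxU⟩, hYX hxY, rfl⟩
  have hVmem : V ∈ 𝓛 := hmap_mem V' hV'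
  have hWmem : W ∈ 𝓛 := hmap_mem W' hW'mem
  have hsubV : ∀ (X : Subgroup U) (x : U), (x : G) ∈ X.map U.subtype ↔ x ∈ X := by
    intro X x
    constructor
    · rintro ⟨y, hy, hyx⟩
      have : y = x := Subtype.ext hyx
      rwa [← this]
    · intro hx
      exact ⟨x, hx, rfl⟩
  have hVn : (V.subgroupOf W).Normal := by
    refine ⟨fun x hx g => ?_⟩
    rw [Subgroup.mem_subgroupOf] at hx ⊢
    have h1 := hV'n.conj_mem (⟨x, hWU x.2⟩ : U) ((hsubV V' ⟨x, hWU x.2⟩).mp hx) ⟨g, hWU g.2⟩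
    exact (hsubV V' _).mpr h1
  have hidx : V.relIndex W = p ^ n := by
    have h1 : V.relIndex W = V'.relIndex W' := by
      rw [hVdef, hWdef]
      exact Subgroup.relIndex_map_map_of_injective V' W' U.subtype_injective
    have h2 : V'.relIndex W' = Nat.card (P : Subgroup (U ⧸ V')) := by
      have h3 : (QuotientGroup.mk' V').ker.relIndex W' = Nat.card (W'.map (QuotientGroup.mk' V')) :=
        Subgroup.relIndex_ker _ _
      rw [QuotientGroup.ker_mk'] at h3
      rw [h3, hW', Subgroup.map_comap_eq_self_of_surjective (QuotientGroup.mk'_surjective V')]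
    rw [h1, h2]
    exact hPn
  have hu : (𝓛.restrict U).Compat (Subgroup.inclusion hWU) (𝓛.restrict W) :=
    compat_comap_of_comp _ rfl
  have key := hasse_tower K hφ hsym n W V hVW (hWU.trans hUU₀) hWmem hVmem hVn hidx
    (fun q => c (Subgroup.inclusion hWU q.1, Subgroup.inclusion hWU q.2))
    (hcl.precomp hu) (hc.precomp _) (hloc.inclusion hWU) (by
      refine isCob_of_const (c (1, 1)) fun q => ?_
      have h1 : Subgroup.inclusion (hVW.trans hWU) q.1 ∈ V' :=
        (hsubV V' (Subgroup.inclusion (hVW.trans hWU) q.1)).mp q.1.2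
      have h2 : Subgroup.inclusion (hVW.trans hWU) q.2 ∈ V' :=
        (hsubV V' (Subgroup.inclusion (hVW.trans hWU) q.2)).mp q.2.2
      have h3 := hcV' 1 1 _ _ h1 h2
      rw [one_mul, one_mul] at h3
      exact h3)
  -- transfer from `W` to `W'`
  let j : W' →* W :=
    { toFun := fun x => ⟨((x : U) : G), ⟨x, x.2, rfl⟩⟩
      map_one' := rfl
      map_mul' := fun _ _ => rfl }
  have hj : (𝓛.restrict W).Compat j ((𝓛.restrict U).restrict W') := by
    rintro X ⟨X', hX', hle⟩
    refine ⟨X'.comap U.subtype, ⟨X', hX', le_rfl⟩, ?_⟩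
    intro x hx
    exact hle (show ((j x : W) : G) ∈ X' from hx)
  exact key.precomp hj

end KumSet

end Abs

end Fermat.Agent.CFT.Kum
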