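import Fermat.Agent.CFT.Kum.Kummer

/-!
# Cup products of Kummer characters with characters of order `p`

In the setting `KumSet`: `χ : G →* Multiplicative (ZMod p)`, `χ s = 1`.

* `cup_coboundary_iff` : `κ_α ∪ χ` is a coboundary iff `α ^ p` is a norm from `Ω^(ker χ)`.
* `exists_cup_of_res` : a 2-cocycle with values in `ZMod p` whose restriction to `ker χ` is a
  coboundary is cohomologous to some `κ_α ∪ χ`.
-/

set_option autoImplicit false
set_option linter.unusedSectionVars false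

namespace Fermat.Agent.CFT.Kum

open Fermat.Agent.PT

namespace KumSet

variable {G : Type*} [Group G] {𝓛 : LevelSys G} {Ω : Type*} [Field Ω] [MulSemiringAction G Ω]
variable {p : ℕ} [hp : Fact p.Prime] {K : KumSet 𝓛 Ω p}

/-- A function with values in `ZMod p` is a level-constant coboundary. -/
def IsCob (𝓛 : LevelSys G) (c : G × G → ZMod p) : Prop :=
  ∃ e : G → ZMod p, LC1 𝓛 e ∧ ∀ g h, c (g, h) = e h - e (g * h) + e g

lemma IsCob.add {c c' : G × G → ZMod p} (hc : IsCob 𝓛 c) (hc' : IsCob 𝓛 c') :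
    IsCob 𝓛 (fun q => c q + c' q) := by
  obtain ⟨e, he, h⟩ := hc
  obtain ⟨e', he', h'⟩ := hc'
  exact ⟨fun g => e g + e' g, (he.prodMk he').comp (fun x => x.1 + x.2), fun g g' => by
    simp only [h, h']; ring⟩

lemma IsCob.neg {c : G × G → ZMod p} (hc : IsCob 𝓛 c) : IsCob 𝓛 (fun q => - c q) := by
  obtain ⟨e, he, h⟩ := hc
  exact ⟨fun g => - e g, he.comp (fun x => -x), fun g g' => by
    simp only [h]; ring⟩

lemma IsCob.sub {c c' : G × G → ZMod p} (hc : IsCob 𝓛 c) (hc' : IsCob 𝓛 c') :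
    IsCob 𝓛 (fun q => c q - c' q) := by
  have := hc.add hc'.neg
  simpa [sub_eq_add_neg] using this

lemma IsCob.smul {c : G × G → ZMod p} (hc : IsCob 𝓛 c) (r : ZMod p) :
    IsCob 𝓛 (fun q => r * c q) := by
  obtain ⟨e, he, h⟩ := hc
  exact ⟨fun g => r * e g, he.comp (fun x => r * x), fun g g' => by
    simp only [h]; ring⟩

/-- The cochain `κ ∪ χ`. -/
def cup (κ χ : G → ZMod p) : G × G → ZMod p := fun q => κ q.1 * χ q.2

@[simp] lemma cup_apply (κ χ : G → ZMod p) (g h : G) : cup κ χ (g, h) = κ g * χ h := rfl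

lemma cup_cocycle {κ χ : G → ZMod p} (hκ : ∀ g h, κ (g * h) = κ g + κ h)
    (hχ : ∀ g h, χ (g * h) = χ g + χ h) (g h j : G) :
    cup κ χ (g * h, j) + cup κ χ (g, h) = cup κ χ (h, j) + cup κ χ (g, h * j) := by
  simp only [cup_apply, hκ, hχ]
  ring

lemma cup_lc {κ χ : G → ZMod p} (hκ : LC1 𝓛 κ) (hχ : LC1 𝓛 χ) : LC2 𝓛 (cup κ χ) :=
  (hκ.fst.prodMk hχ.snd).comp (fun x => x.1 * x.2)

/-- Skew-symmetry of the cup product of characters. -/
lemma cup_skew {κ χ : G → ZMod p} (hκL : LC1 𝓛 κ) (hχL : LC1 𝓛 χ)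
    (hκ : ∀ g h, κ (g * h) = κ g + κ h) (hχ : ∀ g h, χ (g * h) = χ g + χ h) :
    IsCob 𝓛 (fun q => cup κ χ q + cup χ κ q) := by
  refine ⟨fun g => - (κ g * χ g), (hκL.prodMk hχL).comp (fun x => -(x.1 * x.2)), fun g h => ?_⟩
  simp only [cup_apply, hκ, hχ]
  ring

/-- The additive function attached to a character. -/
def cfun (χ : G →* Multiplicative (ZMod p)) (g : G) : ZMod p := (χ g).toAdd

lemma cfun_mul (χ : G →* Multiplicative (ZMod p)) (g h : G) :
    cfun χ (g * h) = cfun χ g + cfun χ h := by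
  rw [cfun, map_mul]
  rfl

lemma cfun_eq_cval (χ : G →* Multiplicative (ZMod p)) (g : G) :
    cfun χ g = (cval χ g : ZMod p) := by
  rw [cval, cfun, ZMod.natCast_val, ZMod.cast_id', id]

lemma cfun_lc {χ : G →* Multiplicative (ZMod p)} (hχ : χ.ker ∈ 𝓛) : LC1 𝓛 (cfun χ) :=
  ⟨χ.ker, hχ, fun g u hu => by rw [cfun, map_mul, MonoidHom.mem_ker.1 hu, mul_one]; rfl⟩

lemma cfun_kumHom {α : Ωˣ} (hα : ∀ g : G, uact g (α ^ p) = α ^ p) :
    cfun (K.kumHom hα) = K.kum α := rfl

/-- The relation between the cup product and the carry cocycle. -/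
lemma zp_cup_mul_carry {χ : G →* Multiplicative (ZMod p)} {α : Ωˣ}
    (hα : ∀ g : G, uact g (α ^ p) = α ^ p) (g h : G) :
    K.zp (cup (K.kum α) (cfun χ) (g, h)) *
      (carry χ (Additive.ofMul (α ^ p)) (g, h)).toMul =
      uact g (α ^ cval χ h) / α ^ cval χ (g * h) * α ^ cval χ g := by
  have h1 : uact g (α ^ cval χ h) = K.zp (cup (K.kum α) (cfun χ) (g, h)) * α ^ cval χ h := by
    rw [map_pow, kum_spec (K := K) hα g, mul_pow, cup_apply, cfun_eq_cval, K.zp_mul_natCast]
  have h2 : (carry χ (Additive.ofMul (α ^ p)) (g, h)).toMul * α ^ cval χ (g * h) =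
      α ^ cval χ g * α ^ cval χ h := by
    rw [← pow_add, cval_add_add χ g h, carry_apply]
    split_ifs with h3
    · rw [toMul_ofMul, add_comm, pow_add]
    · rw [toMul_zero, one_mul, add_zero]
  rw [h1]
  have h3 : (carry χ (Additive.ofMul (α ^ p)) (g, h)).toMul =
      α ^ cval χ g * α ^ cval χ h / α ^ cval χ (g * h) := by
    rw [← h2, mul_div_cancel_right]
  rw [h3]
  apply Additive.ofMul.injective
  simp only [ofMul_mul, ofMul_div]
  abel

lemma zp_cup_add_carry {χ : G →* Multiplicative (ZMod p)} {α : Ωˣ}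
    (hα : ∀ g : G, uact g (α ^ p) = α ^ p) (g h : G) :
    Additive.ofMul (K.zp (cup (K.kum α) (cfun χ) (g, h))) +
      carry χ (Additive.ofMul (α ^ p)) (g, h) =
      Additive.ofMul (uact g (α ^ cval χ h)) - Additive.ofMul (α ^ cval χ (g * h)) +
        Additive.ofMul (α ^ cval χ g) :=
  congrArg Additive.ofMul (zp_cup_mul_carry (K := K) (χ := χ) hα g h)

lemma toMul_pnorm (s : G) (b : Ωˣ) (n : ℕ) :
    (pnorm (unitsRep G Ω) s (Additive.ofMul b) n).toMul =
      ∏ l ∈ Finset.range n, uact (s ^ l) b := by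
  induction n with
  | zero => simp [pnorm]
  | succ n ih =>
    rw [pnorm_succ, toMul_add, ih, Finset.prod_range_succ]
    rfl

section

variable {χ : G →* Multiplicative (ZMod p)} {s : G} (hs : χ s = Multiplicative.ofAdd 1)

include hs

/-- **Cup products and norms.** -/
theorem cup_coboundary_iff (hχ : χ.ker ∈ 𝓛) {α : Ωˣ} (hα : ∀ g : G, uact g (α ^ p) = α ^ p) :
    IsCob 𝓛 (cup (K.kum α) (cfun χ)) ↔
      ∃ b : Ωˣ, (∀ u ∈ χ.ker, uact u b = b) ∧ α ^ p = ∏ l ∈ Finset.range p, uact (s ^ l) b := by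
  constructor
  · rintro ⟨e, he, hce⟩
    have hfLC : LC1 𝓛 (fun g => Additive.ofMul (α ^ cval χ g / K.zp (e g))) :=
      ((LC1.cval hχ).prodMk he).comp (fun x => Additive.ofMul (α ^ x.1 / K.zp x.2))
    obtain ⟨b, hb, hab⟩ := norm_of_carry_coboundary (ρ := unitsRep G Ω) (𝓛 := 𝓛) hs
      (h1van_units K.level _) (a := Additive.ofMul (α ^ p))
      (fun g => congrArg Additive.ofMul (hα g)) hfLC (fun g h => by
        have h1 := zp_cup_add_carry (K := K) (χ := χ) hα g h
        rw [hce g h, K.zp_add, K.zp_sub] at h1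
        rw [unitsRep_apply, toMul_ofMul, map_div, K.uact_zp]
        rw [eq_sub_of_add_eq' h1]
        simp only [ofMul_mul, ofMul_div]
        abel)
    refine ⟨b.toMul, fun u hu => congrArg Additive.toMul (hb u hu), ?_⟩
    rw [← toMul_pnorm]
    exact congrArg Additive.toMul hab
  · rintro ⟨b, hb, hab⟩
    obtain ⟨hfLC, hf⟩ := carry_coboundary_of_norm (ρ := unitsRep G Ω) (𝓛 := 𝓛) hs hχ
      (b := Additive.ofMul b) (fun u hu => congrArg Additive.ofMul (hb u hu))
    set F : G → Ωˣ := fun g => (pnorm (unitsRep G Ω) s (Additive.ofMul b) (cval χ g)).toMul with hF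
    have hFLC : LC1 𝓛 F := hfLC.comp Additive.toMul
    have hN : pnorm (unitsRep G Ω) s (Additive.ofMul b) p = Additive.ofMul (α ^ p) := by
      apply Additive.toMul.injective
      rw [toMul_pnorm, ← hab]
      rfl
    rw [hN] at hf
    have hbLC : LC1 𝓛 (fun g => α ^ cval χ g / F g) :=
      ((LC1.cval hχ).prodMk hFLC).comp (fun x => α ^ x.1 / x.2)
    obtain ⟨e, he, hce⟩ := coboundary_of_units (K := K) (c := cup (K.kum α) (cfun χ)) hbLC
      (fun g h => by
        have h1 := zp_cup_mul_carry (K := K) (χ := χ) hα g h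
        have h2 : (carry χ (Additive.ofMul (α ^ p)) (g, h)).toMul =
            uact g (F h) / F (g * h) * F g := congrArg Additive.toMul (hf g h)
        rw [h2] at h1
        rw [eq_div_of_mul_eq' h1, map_div]
        apply Additive.ofMul.injective
        simp only [ofMul_mul, ofMul_div]
        abel)
    exact ⟨e, he, hce⟩

/-- **Classes killed by restriction to `ker χ`.** -/
theorem exists_cup_of_res (K : KumSet 𝓛 Ω p) (hχ : χ.ker ∈ 𝓛) {c : G × G → ZMod p}
    (hc : LC2 𝓛 c) (hc' : ∀ g h j, c (g * h, j) + c (g, h) = c (h, j) + c (g, h * j))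
    {e : χ.ker → ZMod p} (he : LC1 (𝓛.restrict χ.ker) e)
    (hce : ∀ u v : χ.ker, c (u, v) = e v - e (u * v) + e u) :
    ∃ α : Ωˣ, (∀ g : G, uact g (α ^ p) = α ^ p) ∧
      IsCob 𝓛 (fun q => c q - cup (K.kum α) (cfun χ) q) := by
  set C : G × G → Additive Ωˣ := fun q => Additive.ofMul (K.zp (c q)) with hC
  have hCZ : C ∈ Z2 𝓛 (unitsRep G Ω) := by
    refine ⟨hc.comp (fun x => Additive.ofMul (K.zp x)), fun g h j => ?_⟩
    apply Additive.toMul.injective
    simp only [hC, toMul_add, toMul_ofMul, unitsRep_apply]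
    rw [K.uact_zp, ← K.zp_add, ← K.zp_add, hc']
  obtain ⟨a, ha, f, hf, hfa⟩ := exists_carry_of_res (ρ := unitsRep G Ω) (𝓛 := 𝓛) hs hχ
    K.level.discrete (h1van_units K.level _) hCZ (e := fun u => Additive.ofMul (K.zp (e u)))
    (he.comp (fun x => Additive.ofMul (K.zp x))) (fun u v => by
      apply Additive.toMul.injective
      simp only [hC, toMul_add, toMul_ofMul, unitsRep_apply, toMul_sub]
      rw [K.uact_zp, hce, K.zp_add, K.zp_sub])
  obtain ⟨β, hβ⟩ := K.exists_root a.toMul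
  have hβ' : ∀ g : G, uact g (β ^ p) = β ^ p := by
    intro g
    rw [hβ]
    exact congrArg Additive.toMul (ha g)
  have haβ : a = Additive.ofMul (β ^ p) := by
    rw [hβ]
    rfl
  refine ⟨β⁻¹, fun g => by rw [inv_pow, map_inv, hβ' g], ?_⟩
  have hbLC : LC1 𝓛 (fun g => β ^ cval χ g * (f g).toMul) :=
    ((LC1.cval hχ).prodMk hf).comp (fun x => β ^ x.1 * x.2.toMul)
  obtain ⟨e', he', hce'⟩ := coboundary_of_units (K := K)
    (c := fun q => c q - cup (K.kum β⁻¹) (cfun χ) q) hbLC (fun g h => by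
      have h1 := zp_cup_add_carry (K := K) (χ := χ) hβ' g h
      have h2 := hfa g h
      rw [haβ] at h2
      simp only [hC, unitsRep_apply] at h2
      have h3 : cup (K.kum β⁻¹) (cfun χ) (g, h) = - cup (K.kum β) (cfun χ) (g, h) := by
        simp only [cup_apply, kum_inv hβ', neg_mul]
      rw [h3, sub_neg_eq_add, K.zp_add, map_mul]
      apply Additive.ofMul.injective
      simp only [ofMul_mul, ofMul_div, ofMul_toMul]
      rw [eq_add_of_sub_eq h2, eq_sub_of_add_eq h1]
      abel)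
  exact ⟨e', he', hce'⟩

end

end KumSet

end Fermat.Agent.CFT.Kum
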