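import Fermat.Agent.PT.Cyclic

/-!
# Hilbert 90 and Kummer theory for level-constant cochains

`G` acts on a field `Ω`, with a level system `𝓛` such that every level contains the pointwise
stabiliser of a subfield, which is again a level (`FieldLevel`).

* `unitsRep` : the representation on `Additive Ωˣ`.
* `h1van_units` : `H¹(U, Ωˣ) = 0` for every subgroup `U`.
-/

set_option autoImplicit false
set_option linter.unusedSectionVars false

namespace Fermat.Agent.CFT.Kum

open Fermat.Agent.PT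

variable {G : Type*} [Group G] {Ω : Type*} [Field Ω] [MulSemiringAction G Ω]

/-- The action of `g` on `Ωˣ`. -/
def uact (g : G) : Ωˣ →* Ωˣ := Units.map (MulSemiringAction.toRingHom G Ω g : Ω →* Ω)

@[simp] lemma coe_uact (g : G) (x : Ωˣ) : (uact g x : Ω) = g • (x : Ω) := rfl

lemma uact_one (x : Ωˣ) : uact (1 : G) x = x := Units.ext (one_smul G (x : Ω))

lemma uact_mul (g h : G) (x : Ωˣ) : uact (g * h) x = uact g (uact h x) :=
  Units.ext (mul_smul g h (x : Ω))

lemma uact_inv_self (g : G) (x : Ωˣ) : uact g⁻¹ (uact g x) = x := by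
  rw [← uact_mul, inv_mul_cancel, uact_one]

lemma uact_self_inv (g : G) (x : Ωˣ) : uact g (uact g⁻¹ x) = x := by
  rw [← uact_mul, mul_inv_cancel, uact_one]

lemma uact_eq_iff {g : G} {x y : Ωˣ} : uact g x = y ↔ g • (x : Ω) = y := Units.ext_iff

variable (G Ω) in
/-- The representation of `G` on `Ωˣ`. -/
noncomputable def unitsRep : Representation ℤ G (Additive Ωˣ) where
  toFun g := (uact g : Ωˣ →* Ωˣ).toAdditive.toIntLinearMap
  map_one' := by
    ext m
    exact congrArg Units.val (uact_one m.toMul)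
  map_mul' g h := by
    ext m
    exact congrArg Units.val (uact_mul g h m.toMul)

@[simp] lemma unitsRep_apply (g : G) (m : Additive Ωˣ) :
    unitsRep G Ω g m = Additive.ofMul (uact g m.toMul) := rfl

/-- Pointwise stabiliser of a set. -/
def stab (G : Type*) [Group G] {Ω : Type*} [Field Ω] [MulSemiringAction G Ω] (E : Set Ω) :
    Subgroup G where
  carrier := {g | ∀ x ∈ E, g • x = x}
  mul_mem' {a b} ha hb x hx := by rw [mul_smul, hb x hx, ha x hx]
  one_mem' x _ := one_smul _ x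
  inv_mem' {a} ha x hx := by rw [inv_smul_eq_iff, ha x hx]

lemma mem_stab {E : Set Ω} {g : G} : g ∈ stab G E ↔ ∀ x ∈ E, g • x = x := Iff.rfl

lemma stab_anti {E F : Set Ω} (h : E ⊆ F) : stab G F ≤ stab G E := fun _ hg x hx => hg x (h hx)

/-- Every level contains the pointwise stabiliser of a subfield, which is again a level; every
element of `Ω` is fixed by a level. -/
structure FieldLevel (𝓛 : LevelSys G) (Ω : Type*) [Field Ω] [MulSemiringAction G Ω] : Prop where
  exists_subfield : ∀ W ∈ 𝓛, ∃ E : Subfield Ω, stab G (E : Set Ω) ≤ W ∧ stab G (E : Set Ω) ∈ 𝓛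
  exists_fix : ∀ x : Ω, ∃ W ∈ 𝓛, ∀ g ∈ W, g • x = x

variable {𝓛 : LevelSys G}

/-- Pull back along a homomorphism compatible with the actions. -/
lemma FieldLevel.comap {H : Type*} [Group H] [MulSemiringAction H Ω] (h𝓛 : FieldLevel 𝓛 Ω)
    (u : H →* G) (hu : ∀ (h : H) (x : Ω), u h • x = h • x) : FieldLevel (𝓛.comap u) Ω where
  exists_subfield W hW := by
    obtain ⟨W', hW', h⟩ := hW
    obtain ⟨E, hE, hE'⟩ := h𝓛.exists_subfield W' hW'
    have hEE : stab H (E : Set Ω) = (stab G (E : Set Ω)).comap u := by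
      ext g
      simp only [mem_stab, Subgroup.mem_comap, hu]
    refine ⟨E, ?_, ?_⟩
    · rw [hEE]
      exact (Subgroup.comap_mono hE).trans h
    · rw [hEE]
      exact LevelSys.comap_mem_comap _ hE'
  exists_fix x := by
    obtain ⟨W, hW, h⟩ := h𝓛.exists_fix x
    exact ⟨W.comap u, LevelSys.comap_mem_comap _ hW, fun g hg => by rw [← hu]; exact h _ hg⟩

lemma FieldLevel.restrict (h𝓛 : FieldLevel 𝓛 Ω) (U : Subgroup G) :
    FieldLevel (𝓛.restrict U) Ω :=
  h𝓛.comap U.subtype (fun _ _ => rfl)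

lemma FieldLevel.discrete (h𝓛 : FieldLevel 𝓛 Ω) : Discrete 𝓛 (unitsRep G Ω) := by
  intro m
  obtain ⟨W, hW, h⟩ := h𝓛.exists_fix (m.toMul : Ω)
  refine ⟨W, hW, fun g hg => ?_⟩
  apply Additive.toMul.injective
  apply Units.ext
  exact h g hg

/-- **Hilbert 90** (group version). -/
theorem hilbert90 (h𝓛 : FieldLevel 𝓛 Ω) (f : G → Ωˣ) (hf : LC1 𝓛 f)
    (hfc : ∀ u v : G, f (u * v) = uact u (f v) * f u) :
    ∃ m : Ωˣ, ∀ u : G, f u = uact u m / m := by
  classical
  obtain ⟨W, hW, hfW⟩ := hf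
  obtain ⟨E, hEW, hE⟩ := h𝓛.exists_subfield W hW
  set V : Subgroup G := stab G (E : Set Ω) with hV
  have hfin : V.FiniteIndex := LevelSys.finiteIndex hE
  have : Fintype (G ⧸ V) := Fintype.ofFinite _
  -- the characters
  let χ : G ⧸ V → E →* Ω := fun q =>
    { toFun := fun x => q.out • (x : Ω)
      map_one' := by simp
      map_mul' := fun x y => by simp }
  have hχinj : Function.Injective χ := by
    intro q q' h
    have h1 : q.out⁻¹ * q'.out ∈ V := by
      intro x hx
      have h2 : q.out • x = q'.out • x := DFunLike.congr_fun h ⟨x, hx⟩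
      rw [mul_smul, ← h2, inv_smul_smul]
    have h2 : (q.out : G ⧸ V) = (q'.out : G ⧸ V) := QuotientGroup.eq.2 h1
    simpa using h2
  have hli := (linearIndependent_monoidHom E Ω).comp χ hχinj
  have hne : ∃ x : E, ∑ q, (f q.out : Ω) * (χ q x) ≠ 0 := by
    by_contra hcon
    push Not at hcon
    have h1 := Fintype.linearIndependent_iff.1 hli (fun q => (f q.out : Ω)) (by
      ext x
      simpa [Function.comp_def] using hcon x) (QuotientGroup.mk 1)
    exact (f _).ne_zero h1
  obtain ⟨x, hx⟩ := hne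
  set B : Ω := ∑ q, (f q.out : Ω) * (χ q x) with hB
  have hval : ∀ g : G, (f (g : G ⧸ V).out : Ω) * χ (g : G ⧸ V) x = f g * g • (x : Ω) := by
    intro g
    have h1 : ((g : G ⧸ V).out : G ⧸ V) = (g : G ⧸ V) := Quotient.out_eq' _
    have h2 : (g : G)⁻¹ * (g : G ⧸ V).out ∈ V := QuotientGroup.eq.1 h1.symm
    set v := (g : G)⁻¹ * (g : G ⧸ V).out with hv
    have h3 : (g : G ⧸ V).out = g * v := by rw [hv]; group
    have h4 : χ (g : G ⧸ V) x = (g : G ⧸ V).out • (x : Ω) := rfl
    rw [h4, h3, hfW g v (hEW h2), mul_smul, h2 x x.2]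
  have key : ∀ u : G, (f u : Ω) * u • B = B := by
    intro u
    have h1 : (f u : Ω) * u • B = ∑ q, (f u : Ω) * u • ((f q.out : Ω) * χ q x) := by
      rw [hB, Finset.smul_sum, Finset.mul_sum]
    rw [h1, hB]
    refine Fintype.sum_equiv (MulAction.toPerm u) _ _ fun q => ?_
    have h2 : (MulAction.toPerm u q : G ⧸ V) = ((u * q.out : G) : G ⧸ V) := by
      conv_lhs => rw [← QuotientGroup.out_eq' q]
      rfl
    rw [h2, hval, hfc, smul_mul', Units.val_mul, coe_uact, mul_smul]
    have h4 : χ q x = q.out • (x : Ω) := rfl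
    rw [h4]
    ring
  refine ⟨(Units.mk0 B hx)⁻¹, fun u => ?_⟩
  rw [map_inv, div_inv_eq_mul, eq_inv_mul_iff_mul_eq]
  apply Units.ext
  rw [Units.val_mul, coe_uact, Units.val_mk0, mul_comm]
  exact key u

/-- **Hilbert 90**: `H¹(U, Ωˣ) = 0`. -/
theorem h1van_units (h𝓛 : FieldLevel 𝓛 Ω) (U : Subgroup G) : H1Van 𝓛 (unitsRep G Ω) U := by
  intro f hf hfc
  obtain ⟨m, hm⟩ := hilbert90 (h𝓛.restrict U) (fun u => (f u).toMul) (hf.comp _) (fun u v => by
    rw [hfc]
    rfl)
  refine ⟨Additive.ofMul m, fun u => ?_⟩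
  apply Additive.toMul.injective
  rw [hm u]
  rfl

/-- **Hilbert 90**: `H¹(G, Ωˣ) = 0`. -/
theorem h1_units (h𝓛 : FieldLevel 𝓛 Ω) (x : H1 𝓛 (unitsRep G Ω)) : x = 0 := by
  obtain ⟨f, rfl⟩ := H1mk_surjective x
  rw [H1mk_eq_zero]
  obtain ⟨m, hm⟩ := hilbert90 h𝓛 (fun u => (f.1 u).toMul) (f.2.1.comp _) (fun u v => by
    rw [f.2.2]
    rfl)
  refine ⟨Additive.ofMul m, fun u => ?_⟩
  apply Additive.toMul.injective
  rw [hm u]
  rfl

end Fermat.Agent.CFT.Kum
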