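import Fermat.Agent.CFT.Kum.Hilbert90

/-!
# Kummer theory for level-constant cochains

`G` acts on a field `Ω` with a level system satisfying `FieldLevel`; `ζ : Ωˣ` is a primitive
`p`-th root of unity fixed by `G`, and every element of `Ωˣ` has a `p`-th root (`KumSet`).

* `K.zp i = ζ ^ i` for `i : ZMod p`.
* `K.kum α : G → ZMod p` : the Kummer character, `g α = ζ ^ (kum α g) * α` if `α ^ p ∈ Ω^G`.
* `K.exists_kum` : every level-constant additive character is of this form.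
* `K.coboundary_of_units` : `H²(G, μ_p) → H²(G, Ωˣ)` is injective.
* `K.exists_of_pow_coboundary` : the image of `H²(G, μ_p) → H²(G, Ωˣ)` is the `p`-torsion.
* `K.cup_coboundary_iff` : `κ_a ∪ χ = 0 ↔ a` is a norm from the fixed field of `ker χ`.
* `K.exists_cup_of_res` : classes in `H²(G, μ_p)` killed by restriction to `ker χ` are `κ_a ∪ χ`.
-/

set_option autoImplicit false
set_option linter.unusedSectionVars false

namespace Fermat.Agent.CFT.Kum

open Fermat.Agent.PT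

/-- The setting for Kummer theory. -/
structure KumSet {G : Type*} [Group G] (𝓛 : LevelSys G) (Ω : Type*) [Field Ω]
    [MulSemiringAction G Ω] (p : ℕ) where
  ζ : Ωˣ
  prim : IsPrimitiveRoot ζ p
  fixed : ∀ g : G, uact g ζ = ζ
  level : FieldLevel 𝓛 Ω
  exists_root : ∀ x : Ωˣ, ∃ y : Ωˣ, y ^ p = x

namespace KumSet

variable {G : Type*} [Group G] {𝓛 : LevelSys G} {Ω : Type*} [Field Ω] [MulSemiringAction G Ω]
variable {p : ℕ} [hp : Fact p.Prime] (K : KumSet 𝓛 Ω p)

/-- Pull back along a homomorphism compatible with the actions. -/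
def comap {H : Type*} [Group H] [MulSemiringAction H Ω] (u : H →* G)
    (hu : ∀ (h : H) (x : Ω), u h • x = h • x) : KumSet (𝓛.comap u) Ω p where
  ζ := K.ζ
  prim := K.prim
  fixed h := by
    have := K.fixed (u h)
    rw [uact_eq_iff] at this ⊢
    rwa [hu] at this
  level := K.level.comap u hu
  exists_root := K.exists_root

/-- Restriction to a subgroup. -/
def restrict (U : Subgroup G) : KumSet (𝓛.restrict U) Ω p := K.comap U.subtype (fun _ _ => rfl)

/-- `ζ ^ i` for `i : ZMod p`. -/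
def zp (i : ZMod p) : Ωˣ := K.ζ ^ i.val

lemma zp_natCast (n : ℕ) : K.zp (n : ZMod p) = K.ζ ^ n := by
  rw [zp, ZMod.val_natCast, ← pow_mod_orderOf K.ζ n, ← K.prim.eq_orderOf]

lemma zp_zero : K.zp 0 = 1 := by rw [zp, ZMod.val_zero, pow_zero]

lemma zp_add (i j : ZMod p) : K.zp (i + j) = K.zp i * K.zp j := by
  have h1 : i + j = ((i.val + j.val : ℕ) : ZMod p) := by push_cast; simp
  rw [h1, zp_natCast, pow_add]
  rfl

lemma zp_neg (i : ZMod p) : K.zp (-i) = (K.zp i)⁻¹ := by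
  rw [eq_inv_iff_mul_eq_one, ← zp_add, neg_add_cancel, zp_zero]

lemma zp_sub (i j : ZMod p) : K.zp (i - j) = K.zp i / K.zp j := by
  rw [sub_eq_add_neg, zp_add, zp_neg, div_eq_mul_inv]

lemma zp_mul_natCast (i : ZMod p) (n : ℕ) : K.zp (i * n) = K.zp i ^ n := by
  have h1 : i * n = ((i.val * n : ℕ) : ZMod p) := by push_cast; simp
  rw [h1, zp_natCast, pow_mul]
  rfl

lemma zp_pow (i : ZMod p) : K.zp i ^ p = 1 := by
  rw [← zp_mul_natCast, ZMod.natCast_self, mul_zero, zp_zero]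

lemma uact_zp (g : G) (i : ZMod p) : uact g (K.zp i) = K.zp i := by
  rw [zp, map_pow, K.fixed]

lemma zp_injective : Function.Injective K.zp := by
  intro i j h
  have h1 := K.prim.pow_inj (ZMod.val_lt i) (ZMod.val_lt j) h
  exact ZMod.val_injective p h1

lemma zp_eq_one_iff {i : ZMod p} : K.zp i = 1 ↔ i = 0 := by
  rw [← K.zp_zero]
  exact K.zp_injective.eq_iff

lemma exists_zp {x : Ωˣ} (hx : x ^ p = 1) : ∃ i : ZMod p, x = K.zp i := by
  have h1 : (x : Ω) ^ p = 1 := by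
    rw [← Units.val_pow_eq_pow_val, hx, Units.val_one]
  have h2 : IsPrimitiveRoot (K.ζ : Ω) p := IsPrimitiveRoot.coe_units_iff.2 K.prim
  obtain ⟨i, hi, h3⟩ := h2.eq_pow_of_pow_eq_one h1
  refine ⟨(i : ZMod p), ?_⟩
  rw [zp_natCast]
  apply Units.ext
  rw [Units.val_pow_eq_pow_val, h3]

/-- The logarithm on `μ_p`. -/
noncomputable def lg (x : Ωˣ) : ZMod p :=
  open Classical in if h : ∃ i : ZMod p, x = K.zp i then h.choose else 0

lemma zp_lg {x : Ωˣ} (hx : x ^ p = 1) : K.zp (K.lg x) = x := by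
  have h := K.exists_zp hx
  rw [lg, dif_pos h]
  exact h.choose_spec.symm

lemma lg_zp (i : ZMod p) : K.lg (K.zp i) = i := K.zp_injective (K.zp_lg (K.zp_pow i))

/-- The Kummer character attached to `α`. -/
noncomputable def kum (α : Ωˣ) (g : G) : ZMod p := K.lg (uact g α / α)

/-- `α ^ p` is fixed by `G`. -/
def PFix (α : Ωˣ) : Prop := ∀ g : G, uact g (α ^ p) = α ^ p

variable {K}

lemma kum_spec {α : Ωˣ} (hα : ∀ g : G, uact g (α ^ p) = α ^ p) (g : G) :
    uact g α = K.zp (K.kum α g) * α := by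
  have h1 : (uact g α / α) ^ p = 1 := by
    rw [div_pow, ← map_pow, hα g, div_self']
  rw [kum, K.zp_lg h1, div_mul_cancel]

lemma kum_unique {α : Ωˣ} {g : G} {i : ZMod p} (h : uact g α = K.zp i * α) : K.kum α g = i := by
  rw [kum, h, mul_div_cancel_right, lg_zp]

lemma kum_mul {α : Ωˣ} (hα : ∀ g : G, uact g (α ^ p) = α ^ p) (g h : G) :
    K.kum α (g * h) = K.kum α g + K.kum α h := by
  apply kum_unique
  rw [uact_mul, kum_spec (K := K) hα h, map_mul, K.uact_zp, kum_spec (K := K) hα g, K.zp_add]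
  ac_rfl

lemma kum_mul_elt {α β : Ωˣ} (hα : ∀ g : G, uact g (α ^ p) = α ^ p)
    (hβ : ∀ g : G, uact g (β ^ p) = β ^ p) (g : G) :
    K.kum (α * β) g = K.kum α g + K.kum β g := by
  apply kum_unique
  rw [map_mul, kum_spec hα, kum_spec hβ, K.zp_add]
  exact mul_mul_mul_comm _ _ _ _

lemma kum_eq_zero_iff {α : Ωˣ} (hα : ∀ g : G, uact g (α ^ p) = α ^ p) {g : G} :
    K.kum α g = 0 ↔ uact g α = α := by
  constructor
  · intro h
    rw [kum_spec hα g, h, zp_zero, one_mul]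
  · intro h
    apply kum_unique
    rw [h, zp_zero, one_mul]

lemma kum_inv {α : Ωˣ} (hα : ∀ g : G, uact g (α ^ p) = α ^ p) (g : G) :
    K.kum α⁻¹ g = - K.kum α g := by
  apply kum_unique
  rw [map_inv, kum_spec hα, K.zp_neg, mul_inv]

lemma kum_lc {α : Ωˣ} (hα : ∀ g : G, uact g (α ^ p) = α ^ p) : LC1 𝓛 (K.kum α) := by
  obtain ⟨W, hW, h⟩ := K.level.exists_fix (α : Ω)
  refine ⟨W, hW, fun g s hs => ?_⟩
  rw [kum_mul hα, (kum_eq_zero_iff hα).2 (uact_eq_iff.2 (h s hs)), add_zero]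

variable (K) in
/-- The Kummer character as a homomorphism. -/
noncomputable def kumHom {α : Ωˣ} (hα : ∀ g : G, uact g (α ^ p) = α ^ p) :
    G →* Multiplicative (ZMod p) where
  toFun g := Multiplicative.ofAdd (K.kum α g)
  map_one' := by
    rw [(kum_eq_zero_iff hα).2 (uact_one α)]
    rfl
  map_mul' g h := by
    rw [kum_mul hα]
    rfl

@[simp] lemma kumHom_apply {α : Ωˣ} (hα : ∀ g : G, uact g (α ^ p) = α ^ p) (g : G) :
    K.kumHom hα g = Multiplicative.ofAdd (K.kum α g) := rfl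

lemma kumHom_ker_mem {α : Ωˣ} (hα : ∀ g : G, uact g (α ^ p) = α ^ p) :
    (K.kumHom hα).ker ∈ 𝓛 := by
  obtain ⟨W, hW, h⟩ := K.level.exists_fix (α : Ω)
  refine LevelSys.mono hW fun s hs => ?_
  rw [MonoidHom.mem_ker, kumHom_apply, (kum_eq_zero_iff hα).2 (uact_eq_iff.2 (h s hs))]
  rfl

lemma mem_kumHom_ker {α : Ωˣ} (hα : ∀ g : G, uact g (α ^ p) = α ^ p) {g : G} :
    g ∈ (K.kumHom hα).ker ↔ g • (α : Ω) = α := by
  rw [MonoidHom.mem_ker, kumHom_apply, ← uact_eq_iff, ← kum_eq_zero_iff (K := K) hα]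
  exact Iff.rfl

/-- Kummer theory: surjectivity. -/
theorem exists_kum {κ : G → ZMod p} (hκ : LC1 𝓛 κ) (hκ' : ∀ g h, κ (g * h) = κ g + κ h) :
    ∃ α : Ωˣ, (∀ g : G, uact g (α ^ p) = α ^ p) ∧ ∀ g, K.kum α g = κ g := by
  obtain ⟨m, hm⟩ := hilbert90 K.level (fun g => K.zp (κ g)) (hκ.comp K.zp) (fun u v => by
    rw [hκ', K.zp_add, K.uact_zp, mul_comm])
  refine ⟨m, fun g => ?_, fun g => ?_⟩
  · have h1 := congrArg (· ^ p) (hm g)
    simp only [K.zp_pow, div_pow] at h1
    rw [map_pow]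
    exact (div_eq_one.1 h1.symm)
  · apply kum_unique
    rw [hm g, div_mul_cancel]

lemma aux_id1 {X : Type*} [CommGroup X] (A B C n N₁ N₂ : X) :
    A / B * C = A * N₁ / N₂ / (B * n / N₂) * (C * n / N₁) := by
  apply Additive.ofMul.injective
  simp only [ofMul_mul, ofMul_div]
  abel

lemma aux_id2 {X : Type*} [CommGroup X] (x y z a b c d f k : X) :
    x / (a / b * c) * (y / (d / c * f)) = x * y / z / (a / k * d) * (z / (k / b * f)) := by
  apply Additive.ofMul.injective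
  simp only [ofMul_mul, ofMul_div]
  abel

/-- `H²(G, μ_p) → H²(G, Ωˣ)` is injective. -/
theorem coboundary_of_units {c : G × G → ZMod p} {b : G → Ωˣ} (hb : LC1 𝓛 b)
    (h : ∀ g g', K.zp (c (g, g')) = uact g (b g') / b (g * g') * b g) :
    ∃ e : G → ZMod p, LC1 𝓛 e ∧ ∀ g g', c (g, g') = e g' - e (g * g') + e g := by
  -- `b ^ p` is a cocycle
  obtain ⟨m, hm⟩ := hilbert90 K.level (fun g => b g ^ p) (hb.comp (· ^ p)) (fun u v => by
    have h1 := congrArg (· ^ p) (h u v)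
    simp only [K.zp_pow, mul_pow, div_pow] at h1
    rw [map_pow]
    rw [div_mul_eq_mul_div, eq_comm, div_eq_one] at h1
    exact h1.symm)
  obtain ⟨n, hn⟩ := K.exists_root m
  have h1 : ∀ g, (b g * n / uact g n) ^ p = 1 := by
    intro g
    rw [div_pow, mul_pow, ← map_pow, hn, hm g, div_mul_cancel, div_self']
  have hnLC : LC1 𝓛 (fun g : G => uact g n) := by
    obtain ⟨W, hW, h⟩ := K.level.exists_fix (n : Ω)
    refine ⟨W, hW, fun g s hs => ?_⟩
    show uact (g * s) n = uact g n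
    rw [uact_mul, (uact_eq_iff (x := n)).2 (h s hs)]
  refine ⟨fun g => K.lg (b g * n / uact g n),
    (hb.prodMk hnLC).comp (fun x => K.lg (x.1 * n / x.2)), fun g g' => ?_⟩
  apply K.zp_injective
  rw [K.zp_add, K.zp_sub, K.zp_lg (h1 _), K.zp_lg (h1 _), K.zp_lg (h1 _), h, uact_mul]
  have h2 : uact g (b g') / b (g * g') * b g =
      uact g (b g' * n / uact g' n) / (b (g * g') * n / uact g (uact g' n)) *
        (b g * n / uact g n) := by
    rw [map_div, map_mul]
    exact aux_id1 _ _ _ _ _ _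
  rw [h2]
  congr 2
  conv_lhs => rw [← K.zp_lg (h1 g'), K.uact_zp, K.zp_lg (h1 g')]

/-- The `p`-torsion of `H²(G, Ωˣ)` comes from `H²(G, μ_p)`. -/
theorem exists_of_pow_coboundary {C : G × G → Ωˣ}
    (hC : LC2 𝓛 C) (hC' : ∀ g h j, C (g * h, j) * C (g, h) = uact g (C (h, j)) * C (g, h * j))
    {b : G → Ωˣ} (hb : LC1 𝓛 b)
    (h : ∀ g g', C (g, g') ^ p = uact g (b g') / b (g * g') * b g) :
    ∃ c : G × G → ZMod p, LC2 𝓛 c ∧
      (∀ g h j, c (g * h, j) + c (g, h) = c (h, j) + c (g, h * j)) ∧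
      ∃ e : G → Ωˣ, LC1 𝓛 e ∧
        ∀ g g', C (g, g') = K.zp (c (g, g')) * (uact g (e g') / e (g * g') * e g) := by
  choose r hr using K.exists_root
  set e : G → Ωˣ := fun g => r (b g) with he
  have heLC : LC1 𝓛 e := hb.comp r
  have h1 : ∀ g g', (C (g, g') / (uact g (e g') / e (g * g') * e g)) ^ p = 1 := by
    intro g g'
    rw [div_pow, h, mul_pow, div_pow, ← map_pow]
    simp only [he, hr]
    rw [div_self']
  have hactLC : LC2 𝓛 (fun q : G × G => uact q.1 (e q.2)) := by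
    have h2 := LC1.act (k := ℤ) K.level.discrete (f := fun g => Additive.ofMul (e g))
      (heLC.comp Additive.ofMul)
    exact h2.comp Additive.toMul
  refine ⟨fun q => K.lg (C q / (uact q.1 (e q.2) / e (q.1 * q.2) * e q.1)), ?_, ?_, e, heLC, ?_⟩
  · exact ((hC.prodMk ((hactLC.prodMk heLC.mul).prodMk heLC.fst))).comp
      (fun x => K.lg (x.1 / (x.2.1.1 / x.2.1.2 * x.2.2)))
  · intro g h j
    apply K.zp_injective
    simp only
    rw [K.zp_add, K.zp_add, K.zp_lg (h1 _ _), K.zp_lg (h1 _ _), K.zp_lg (h1 _ _),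
      K.zp_lg (h1 _ _)]
    have h3 : C (h, j) / (uact h (e j) / e (h * j) * e h) =
        uact g (C (h, j) / (uact h (e j) / e (h * j) * e h)) := by
      conv_rhs => rw [← K.zp_lg (h1 h j), K.uact_zp, K.zp_lg (h1 h j)]
    rw [h3, map_div, map_mul, map_div, ← uact_mul]
    have h4 := hC' g h j
    have h5 : uact g (C (h, j)) = C (g * h, j) * C (g, h) / C (g, h * j) := by
      rw [h4, mul_div_cancel_right]
    rw [h5, mul_assoc g h j]
    exact aux_id2 _ _ _ _ _ _ _ _ _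
  · intro g g'
    rw [K.zp_lg (h1 _ _), div_mul_cancel]

end KumSet

end Fermat.Agent.CFT.Kum
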