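import Fermat.Agent.CFT.Kum.Cup
import Fermat.Agent.CFT.Global.Kummer
import Fermat.Agent.CFT.Global.KummerExt

/-!
# Cup products of Kummer characters and norms from `F[X]/(X^p - b)`
-/

set_option autoImplicit false
set_option linter.unusedSectionVars false

namespace Fermat.Agent.CFT.Kum

open Fermat.Agent.PT Polynomial

namespace KumSet

variable {G : Type*} [Group G] {𝓛 : LevelSys G} {Ω : Type*} [Field Ω] [MulSemiringAction G Ω]
variable {p : ℕ} [hp : Fact p.Prime] (K : KumSet 𝓛 Ω p)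

/-- The embedded field `F` is the fixed field of `G`. -/
def IsFixed (G : Type*) [Group G] {Ω : Type*} [Field Ω] [MulSemiringAction G Ω]
    (F : Type*) [Field F] [Algebra F Ω] : Prop :=
  ∀ x : Ω, (∀ g : G, g • x = x) ↔ x ∈ Set.range (algebraMap F Ω)

variable {F : Type*} [Field F] [Algebra F Ω]

lemma IsFixed.smul_algebraMap (hF : IsFixed G (Ω := Ω) F) (g : G) (x : F) :
    g • algebraMap F Ω x = algebraMap F Ω x := (hF _).2 ⟨x, rfl⟩ g

lemma IsFixed.pfix (hF : IsFixed G (Ω := Ω) F) {α : Ωˣ} {a : Fˣ}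
    (hα : (α : Ω) ^ p = algebraMap F Ω a) (g : G) : uact g (α ^ p) = α ^ p := by
  rw [uact_eq_iff, Units.val_pow_eq_pow_val, hα]
  exact hF.smul_algebraMap g a

lemma exists_kum_ne_zero (hF : IsFixed G (Ω := Ω) F) {β : Ωˣ} {b : Fˣ}
    (hβ : (β : Ω) ^ p = algebraMap F Ω b) (hb : ∀ c : Fˣ, c ^ p ≠ b) :
    ∃ g, K.kum β g ≠ 0 := by
  by_contra hcon
  push Not at hcon
  obtain ⟨c, hc⟩ := (hF (β : Ω)).1 fun g =>
    uact_eq_iff.1 ((kum_eq_zero_iff (K := K) (hF.pfix hβ)).1 (hcon g))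
  have hc0 : c ≠ 0 := by
    rintro rfl
    rw [map_zero] at hc
    exact β.ne_zero hc.symm
  apply hb (Units.mk0 c hc0)
  apply Units.ext
  apply (algebraMap F Ω).injective
  rw [Units.val_pow_eq_pow_val, Units.val_mk0, map_pow, hc, hβ]

lemma exists_kum_eq_one (hF : IsFixed G (Ω := Ω) F) {β : Ωˣ} {b : Fˣ}
    (hβ : (β : Ω) ^ p = algebraMap F Ω b) (hb : ∀ c : Fˣ, c ^ p ≠ b) :
    ∃ s, K.kum β s = 1 := by
  obtain ⟨g, hg⟩ := K.exists_kum_ne_zero hF hβ hb
  refine ⟨g ^ ((K.kum β g)⁻¹).val, ?_⟩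
  have h1 : ∀ n : ℕ, K.kum β (g ^ n) = n * K.kum β g := by
    intro n
    induction n with
    | zero =>
      rw [pow_zero, (kum_eq_zero_iff (hF.pfix hβ)).2 (uact_one β), Nat.cast_zero, zero_mul]
    | succ n ih =>
      rw [pow_succ, kum_mul (hF.pfix hβ), ih]
      push_cast
      ring
  rw [h1, ZMod.natCast_val, ZMod.cast_id', id, inv_mul_cancel₀ hg]

/-- Every element fixed by `ker χ_β` is in `F(β)`. -/
lemma exists_coords_of_fixed (hF : IsFixed G (Ω := Ω) F) {β : Ωˣ} {b : Fˣ}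
    (hβ : (β : Ω) ^ p = algebraMap F Ω b) {s : G} (hs : K.kum β s = 1) {y : Ω}
    (hy : ∀ u : G, K.kum β u = 0 → u • y = y) :
    ∃ c : ZMod p → F, y = ∑ i : ZMod p, algebraMap F Ω (c i) * (β : Ω) ^ i.val := by
  have hβ' := hF.pfix hβ
  have hpow : ∀ n : ℕ, K.kum β (s ^ n) = n := by
    intro n
    induction n with
    | zero => rw [pow_zero, (kum_eq_zero_iff hβ').2 (uact_one β), Nat.cast_zero]
    | succ n ih => rw [pow_succ, kum_mul hβ', ih, hs, Nat.cast_succ]
  have hinv : ∀ g, K.kum β g⁻¹ = - K.kum β g := by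
    intro g
    rw [eq_neg_iff_add_eq_zero, ← kum_mul hβ', inv_mul_cancel,
      (kum_eq_zero_iff hβ').2 (uact_one β)]
  -- `g • y` only depends on `kum β g`
  let f : ZMod p → Ω := fun l => s ^ l.val • y
  have hf : ∀ g : G, g • y = f (K.kum β g) := by
    intro g
    have h1 : K.kum β ((s ^ (K.kum β g).val)⁻¹ * g) = 0 := by
      rw [kum_mul hβ', hinv, hpow, ZMod.natCast_val, ZMod.cast_id', id, neg_add_cancel]
    have h2 := hy _ h1
    rw [mul_smul, inv_smul_eq_iff] at h2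
    exact h2
  have hgf : ∀ (g : G) (l : ZMod p), g • f l = f (K.kum β g + l) := by
    intro g l
    change g • s ^ l.val • y = _
    rw [← mul_smul, hf, kum_mul hβ', hpow, ZMod.natCast_val, ZMod.cast_id', id]
  have hζ0 : ∀ i : ZMod p, ((K.zp i : Ωˣ) : Ω) ≠ 0 := fun i => (K.zp i).ne_zero
  have hpΩ : (p : Ω) ≠ 0 := by
    have : NeZero p := ⟨hp.out.ne_zero⟩
    have h2 : IsPrimitiveRoot (K.ζ : Ω) p := IsPrimitiveRoot.coe_units_iff.2 K.prim
    exact h2.neZero'.out
  let C : ZMod p → Ω := fun i => ∑ l : ZMod p, ((K.zp (-(i * l)) : Ωˣ) : Ω) * f l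
  have hgzp : ∀ (g : G) (i : ZMod p), g • ((K.zp i : Ωˣ) : Ω) = (K.zp i : Ωˣ) := by
    intro g i
    rw [← coe_uact, K.uact_zp]
  have hC : ∀ (g : G) (i : ZMod p), g • C i = (K.zp (i * K.kum β g) : Ωˣ) * C i := by
    intro g i
    have e1 : g • C i = ∑ l : ZMod p, ((K.zp (-(i * l)) : Ωˣ) : Ω) * f (K.kum β g + l) := by
      rw [Finset.smul_sum]
      refine Finset.sum_congr rfl fun l _ => ?_
      rw [smul_mul', hgzp, hgf]
    rw [e1, Finset.mul_sum]
    refine Fintype.sum_equiv (Equiv.addLeft (K.kum β g)) _ _ fun l => ?_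
    rw [Equiv.coe_addLeft, ← mul_assoc, ← Units.val_mul, ← K.zp_add]
    congr 3
    ring
  have hCmem : ∀ i : ZMod p, ∃ c : F, algebraMap F Ω c = (p : Ω)⁻¹ * (C i / (β : Ω) ^ i.val) := by
    intro i
    obtain ⟨c, hc⟩ := (hF (C i / (β : Ω) ^ i.val)).1 (by
      intro g
      have h1 : g • (β : Ω) = (K.zp (K.kum β g) : Ωˣ) * β := by
        have := congrArg Units.val (kum_spec (K := K) hβ' g)
        rw [coe_uact] at this
        rw [this, Units.val_mul]
      rw [div_eq_mul_inv, smul_mul', smul_inv'', smul_pow', hC, h1]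
      have h2 : ((K.zp (i * K.kum β g) : Ωˣ) : Ω) = ((K.zp (K.kum β g) : Ωˣ) : Ω) ^ i.val := by
        rw [← Units.val_pow_eq_pow_val, ← K.zp_mul_natCast, ZMod.natCast_val, ZMod.cast_id', id,
          mul_comm]
      rw [h2, mul_pow]
      have := hζ0 (K.kum β g)
      have hβ0 : (β : Ω) ≠ 0 := β.ne_zero
      field_simp)
    obtain ⟨d, hd⟩ : ∃ d : F, algebraMap F Ω d = (p : Ω)⁻¹ := by
      refine ⟨(p : F)⁻¹, by rw [map_inv₀, map_natCast]⟩
    exact ⟨d * c, by rw [map_mul, hc, hd]⟩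
  choose c hc using hCmem
  refine ⟨c, ?_⟩
  have hsum : ∑ i : ZMod p, C i = (p : Ω) * y := by
    have e1 : ∑ i : ZMod p, C i =
        ∑ l : ZMod p, (∑ i : ZMod p, ((K.zp (-(i * l)) : Ωˣ) : Ω)) * f l := by
      rw [Finset.sum_comm]
      refine Finset.sum_congr rfl fun l _ => ?_
      rw [Finset.sum_mul]
    have e2 : ∀ l : ZMod p, l ≠ 0 → ∑ i : ZMod p, ((K.zp (-(i * l)) : Ωˣ) : Ω) = 0 := by
      intro l hl
      have h1 : ∑ i : ZMod p, ((K.zp (-(i * l)) : Ωˣ) : Ω) =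
          ((K.zp (-l) : Ωˣ) : Ω) * ∑ i : ZMod p, ((K.zp (-(i * l)) : Ωˣ) : Ω) := by
        rw [Finset.mul_sum]
        refine Fintype.sum_equiv (Equiv.subRight 1) _ _ fun i => ?_
        rw [Equiv.subRight_apply, ← Units.val_mul, ← K.zp_add]
        congr 2
        ring
      have h2 : ((K.zp (-l) : Ωˣ) : Ω) ≠ 1 := by
        rw [Ne, Units.val_eq_one, K.zp_eq_one_iff, neg_eq_zero]
        exact hl
      by_contra h3
      apply h2
      have h4 := mul_right_cancel₀ h3 ((one_mul _).trans h1)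
      exact h4.symm
    rw [e1, Finset.sum_eq_single_of_mem 0 (Finset.mem_univ _) (fun l _ hl => by
      rw [e2 l hl, zero_mul])]
    have e3 : f 0 = y := by
      change s ^ (0 : ZMod p).val • y = y
      rw [ZMod.val_zero, pow_zero, one_smul]
    rw [e3]
    congr 1
    have : ∀ i : ZMod p, ((K.zp (-(i * 0)) : Ωˣ) : Ω) = 1 := by
      intro i
      rw [mul_zero, neg_zero, K.zp_zero, Units.val_one]
    rw [Finset.sum_congr rfl (fun i _ => this i), Finset.sum_const, Finset.card_univ, ZMod.card,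
      nsmul_eq_mul, mul_one]
  have hβ0 : (β : Ω) ≠ 0 := β.ne_zero
  have e4 : ∀ i : ZMod p, algebraMap F Ω (c i) * (β : Ω) ^ i.val = (p : Ω)⁻¹ * C i := by
    intro i
    rw [hc]
    field_simp
  rw [Finset.sum_congr rfl (fun i _ => e4 i), ← Finset.mul_sum, hsum, inv_mul_cancel_left₀ hpΩ]

/-- **Cup products of Kummer characters and norms**: `κ_α ∪ κ_β = 0` iff `a = α^p` is a norm
from `F(b^{1/p})`, `b = β^p`. -/
theorem cup_isCob_iff_isNormFrom {F : Type*} [Field F] [Algebra F Ω]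
    (hF : IsFixed G (Ω := Ω) F) {α β : Ωˣ} {a b : Fˣ}
    (hα : (α : Ω) ^ p = algebraMap F Ω a) (hβ : (β : Ω) ^ p = algebraMap F Ω b)
    (hb : ∀ c : Fˣ, c ^ p ≠ b) :
    IsCob 𝓛 (cup (K.kum α) (K.kum β)) ↔ Global.IsNormFrom p b a := by
  have hβ' := hF.pfix hβ
  have hα' := hF.pfix hα
  obtain ⟨s, hs⟩ := K.exists_kum_eq_one hF hβ hb
  have H : Irreducible (X ^ p - C (b : F)) := Global.irreducible_of_not_pow hp.out hb
  have : Fact (Irreducible (X ^ p - C (b : F))) := ⟨H⟩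
  have hb' : ∀ c : F, c ^ p ≠ (b : F) := by
    intro c hc
    have hc0 : c ≠ 0 := by
      rintro rfl
      rw [zero_pow hp.out.ne_zero] at hc
      exact b.ne_zero hc.symm
    exact hb (Units.mk0 c hc0) (Units.ext hc)
  -- `ζ ∈ F`
  obtain ⟨ζF, hζF⟩ : ∃ z : F, algebraMap F Ω z = (K.ζ : Ω) := by
    obtain ⟨z, hz⟩ := (hF (K.ζ : Ω)).1 fun g => uact_eq_iff.1 (K.fixed g)
    exact ⟨z, hz⟩
  have hζFp : IsPrimitiveRoot ζF p := by
    have h2 : IsPrimitiveRoot (K.ζ : Ω) p := IsPrimitiveRoot.coe_units_iff.2 K.prim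
    rw [← hζF] at h2
    exact h2.of_map_of_injective (algebraMap F Ω).injective
  have hroot : (AdjoinRoot.root (X ^ p - C (b : F)) : Global.Rad p b) ^ p =
      algebraMap F (Global.Rad p b) (b : F) := root_X_pow_sub_C_pow p (b : F)
  have htop := Global.adjoin_root_rad p b
  obtain ⟨hgal, σ, hσ, hgen, hord⟩ := KummerExt.exists_gen hp.out hζFp hb' hroot htop
  -- the embedding
  let φ : Global.Rad p b →ₐ[F] Ω := AdjoinRoot.liftAlgHom _ (Algebra.ofId F Ω) (β : Ω) (by
    rw [eval₂_sub, eval₂_X_pow, eval₂_C, hβ]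
    exact sub_self _)
  have hφroot : φ (AdjoinRoot.root _) = (β : Ω) := AdjoinRoot.liftAlgHom_root _ _ _ _
  have hφF : ∀ x : F, φ (algebraMap F _ x) = algebraMap F Ω x := fun x => φ.commutes x
  have hsβ : s • (β : Ω) = (K.ζ : Ω) * β := by
    have h1 := congrArg Units.val (kum_spec (K := K) hβ' s)
    rw [coe_uact, hs] at h1
    rw [h1, Units.val_mul]
    congr 2
    have h2 := K.zp_natCast 1
    rw [Nat.cast_one, pow_one] at h2
    rw [h2]
  have hφσ : ∀ x, φ (σ x) = s • φ x := by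
    intro x
    obtain ⟨c, hc⟩ := KummerExt.exists_coords hp.out hroot htop x
    rw [hc, map_sum, map_sum, map_sum, Finset.smul_sum]
    refine Finset.sum_congr rfl fun i _ => ?_
    rw [map_mul, map_mul, map_mul, map_pow, map_pow, map_pow, AlgEquiv.commutes, hφF, hσ,
      map_mul, hφF, hζF, hφroot, smul_mul', smul_pow', hsβ, hF.smul_algebraMap]
  have hφσ' : ∀ (i : ℕ) x, φ ((σ ^ i) x) = s ^ i • φ x := by
    intro i
    induction i with
    | zero => intro x; simp
    | succ i ih => intro x; rw [pow_succ, AlgEquiv.mul_apply, ih, hφσ, pow_succ, mul_smul]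
  have hfd := KummerExt.finiteDimensional hp.out hb' hroot htop
  have hnorm : ∀ z : Global.Rad p b, algebraMap F Ω (Algebra.norm F z) =
      ∏ i ∈ Finset.range p, s ^ i • φ z := by
    intro z
    rw [← hφF, KummerExt.norm_eq_prod_pow hgen hord, map_prod]
    exact Finset.prod_congr rfl fun i _ => hφσ' i z
  have hχs : (K.kumHom hβ') s = Multiplicative.ofAdd 1 := by
    rw [kumHom_apply, hs]
  have hmain := cup_coboundary_iff (K := K) (χ := K.kumHom hβ') hχs (kumHom_ker_mem hβ') hα'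
  rw [cfun_kumHom] at hmain
  rw [hmain]
  have hcoe : ∀ y : Ωˣ, ((∏ l ∈ Finset.range p, uact (s ^ l) y : Ωˣ) : Ω) =
      ∏ l ∈ Finset.range p, s ^ l • (y : Ω) := by
    intro y
    rw [Units.coe_prod]
    exact Finset.prod_congr rfl fun l _ => coe_uact _ _
  constructor
  · rintro ⟨y, hy, hyα⟩
    obtain ⟨c, hc⟩ := K.exists_coords_of_fixed hF hβ hs (y := (y : Ω)) (fun u hu => by
      apply uact_eq_iff.1
      apply hy
      rw [mem_kumHom_ker]
      exact uact_eq_iff.1 ((kum_eq_zero_iff (K := K) hβ').1 hu))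
    refine ⟨∑ i : ZMod p, algebraMap F (Global.Rad p b) (c i) * (AdjoinRoot.root _) ^ i.val, ?_⟩
    apply (algebraMap F Ω).injective
    have hφz : φ (∑ i : ZMod p, algebraMap F (Global.Rad p b) (c i) * (AdjoinRoot.root _) ^ i.val) =
        (y : Ω) := by
      rw [hc, map_sum]
      refine Finset.sum_congr rfl fun i _ => ?_
      rw [map_mul, map_pow, hφF, hφroot]
    have h1 := hnorm (∑ i : ZMod p, algebraMap F (Global.Rad p b) (c i) * (AdjoinRoot.root _) ^ i.val)
    rw [hφz, ← hcoe, ← hyα, Units.val_pow_eq_pow_val, hα] at h1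
    exact h1
  · rintro ⟨z, hz⟩
    have hz' : algebraMap F Ω (Algebra.norm F (z : Global.Rad p b)) = algebraMap F Ω a :=
      congrArg _ hz
    rw [hnorm] at hz'
    have hz0 : φ z ≠ 0 := by
      intro h0
      rw [h0] at hz'
      have h2 : ∏ i ∈ Finset.range p, s ^ i • (0 : Ω) = 0 :=
        Finset.prod_eq_zero (Finset.mem_range.mpr hp.out.pos) (smul_zero (s ^ 0))
      rw [h2] at hz'
      exact a.ne_zero ((map_eq_zero (algebraMap F Ω)).mp hz'.symm)
    refine ⟨Units.mk0 (φ z) hz0, ?_, ?_⟩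
    · intro u hu
      rw [mem_kumHom_ker] at hu
      rw [uact_eq_iff, Units.val_mk0]
      obtain ⟨c, hc⟩ := KummerExt.exists_coords hp.out hroot htop z
      rw [hc, map_sum, Finset.smul_sum]
      refine Finset.sum_congr rfl fun i _ => ?_
      rw [map_mul, map_pow, hφF, hφroot, smul_mul', smul_pow', hu, hF.smul_algebraMap]
    · apply Units.ext
      rw [hcoe, Units.val_mk0, hz', Units.val_pow_eq_pow_val, hα]

end KumSet

end Fermat.Agent.CFT.Kum
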