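import Fermat.Agent.CFT.Kum.Cup

/-!
# Two-cocycles on procyclic groups

`isCob_of_cyclic` : a two-cocycle `D × D → ZMod p` factoring through `D / W₀` is a coboundary as soon
as there is a level `W ≤ W₀` with `D / W` cyclic and `p * [D : W₀] ∣ [D : W]`.
-/

set_option autoImplicit false
set_option linter.unusedSectionVars false

namespace Fermat.Agent.CFT.Kum

open Fermat.Agent.PT KumSet

section Abstract

variable {p : ℕ} [hp : Fact p.Prime] {D : Type*} [Group D] {𝓛 : LevelSys D}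

lemma isCob_carry_of_lift {m r : ℕ} [NeZero m] [NeZero (m * r)] (hpr : p ∣ r)
    (χ : D →* Multiplicative (ZMod m)) (χ' : D →* Multiplicative (ZMod (m * r)))
    (hc : ∀ g, cval χ g = cval χ' g % m) (hχ' : χ'.ker ∈ 𝓛) (a : ZMod p) :
    IsCob 𝓛 (carry χ a) := by
  have hm : 0 < m := Nat.pos_of_neZero m
  refine ⟨fun g => - (a * ((cval χ' g / m : ℕ) : ZMod p)),
    (LC1.cval hχ').comp (fun i => - (a * ((i / m : ℕ) : ZMod p))), fun g h => ?_⟩
  have key : (cval χ' (g * h) / m) + r * (if m * r ≤ cval χ' g + cval χ' h then 1 else 0) =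
      cval χ' g / m + cval χ' h / m + (if m ≤ cval χ g + cval χ h then 1 else 0) := by
    have h1 := cval_add_add χ' g h
    have h2 := cval_add_add χ g h
    have e1 := Nat.div_add_mod (cval χ' g) m
    have e2 := Nat.div_add_mod (cval χ' h) m
    have e3 := Nat.div_add_mod (cval χ' (g * h)) m
    rw [← hc] at e1 e2 e3
    apply Nat.eq_of_mul_eq_mul_left hm
    rw [mul_add, mul_add, mul_add]
    split_ifs at h1 h2 ⊢ <;> simp only [mul_one, mul_zero, add_zero] at h1 h2 ⊢ <;> omega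
  have key2 := congrArg (fun n : ℕ => (n : ZMod p)) key
  have hr : (r : ZMod p) = 0 := (ZMod.natCast_eq_zero_iff r p).2 hpr
  simp only [Nat.cast_add, Nat.cast_mul, hr, zero_mul, add_zero] at key2
  rw [carry_apply]
  beta_reduce
  rw [key2]
  split_ifs <;> push_cast <;> ring

/-- **Main abstract lemma**: two-cocycles on procyclic groups. -/
theorem isCob_of_cyclic (W₀ W : Subgroup D) [W₀.Normal] [hWn : W.Normal] (hW : W ∈ 𝓛)
    (hWW₀ : W ≤ W₀) (hcyc : IsCyclic (D ⧸ W)) (hdvd : p * W₀.index ∣ W.index)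
    {c : D × D → ZMod p}
    (hc0 : ∀ g h, ∀ u ∈ W₀, ∀ v ∈ W₀, c (g * u, h * v) = c (g, h))
    (hcc : ∀ g h j, c (g * h, j) + c (g, h) = c (h, j) + c (g, h * j)) : IsCob 𝓛 c := by
  classical
  have hWf : W.FiniteIndex := LevelSys.finiteIndex hW
  have hW₀ : W₀ ∈ 𝓛 := LevelSys.mono hW hWW₀
  have hW₀f : W₀.FiniteIndex := LevelSys.finiteIndex hW₀
  set m := W₀.index with hm
  have hm0 : NeZero m := ⟨hW₀f.index_ne_zero⟩
  obtain ⟨r, hr⟩ : m ∣ W.index := Subgroup.index_dvd_of_le hWW₀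
  have hmr : NeZero (m * r) := ⟨by rw [← hr]; exact hWf.index_ne_zero⟩
  have hpr : p ∣ r := by
    rw [hr, mul_comm p m] at hdvd
    exact Nat.dvd_of_mul_dvd_mul_left (Nat.pos_of_neZero m) hdvd
  have hcard : Nat.card (D ⧸ W) = m * r := hr
  let e : Multiplicative (ZMod (Nat.card (D ⧸ W))) ≃* D ⧸ W := zmodCyclicMulEquiv hcyc
  let χ' : D →* Multiplicative (ZMod (m * r)) :=
    (AddMonoidHom.toMultiplicative (ZMod.ringEquivCongr hcard).toAddEquiv.toAddMonoidHom).comp
      (e.symm.toMonoidHom.comp (QuotientGroup.mk' W))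
  have hχ'ker : χ'.ker = W := by
    ext g
    rw [MonoidHom.mem_ker]
    have h1 : χ' g = Multiplicative.ofAdd ((ZMod.ringEquivCongr hcard)
      (e.symm (QuotientGroup.mk' W g)).toAdd) := rfl
    rw [h1]
    constructor
    · intro h2
      have h3 : (ZMod.ringEquivCongr hcard) (e.symm (QuotientGroup.mk' W g)).toAdd = 0 := h2
      rw [map_eq_zero_iff _ (ZMod.ringEquivCongr hcard).injective] at h3
      have h4 : e.symm (QuotientGroup.mk' W g) = 1 := h3
      rw [map_eq_one_iff _ e.symm.injective] at h4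
      exact (QuotientGroup.eq_one_iff g).1 h4
    · intro h2
      have h3 : QuotientGroup.mk' W g = 1 := (QuotientGroup.eq_one_iff g).2 h2
      rw [h3, map_one, toAdd_one, map_zero]
      rfl
  have hχ'surj : Function.Surjective χ' := by
    intro x
    obtain ⟨y, hy⟩ := (ZMod.ringEquivCongr hcard).surjective x.toAdd
    obtain ⟨z, hz⟩ := e.symm.surjective (Multiplicative.ofAdd y)
    obtain ⟨g, hg⟩ := QuotientGroup.mk'_surjective W z
    refine ⟨g, ?_⟩
    have h1 : χ' g = Multiplicative.ofAdd ((ZMod.ringEquivCongr hcard)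
      (e.symm (QuotientGroup.mk' W g)).toAdd) := rfl
    rw [h1, hg, hz, toAdd_ofAdd, hy]
    rfl
  let χ : D →* Multiplicative (ZMod m) :=
    (AddMonoidHom.toMultiplicative
      (ZMod.castHom (dvd_mul_right m r) (ZMod m)).toAddMonoidHom).comp χ'
  have hc : ∀ g, cval χ g = cval χ' g % m := by
    intro g
    have h1 : χ g = Multiplicative.ofAdd ((ZMod.castHom (dvd_mul_right m r) (ZMod m))
      (χ' g).toAdd) := rfl
    rw [cval, h1, toAdd_ofAdd, ZMod.castHom_apply, ← ZMod.natCast_val, ZMod.val_natCast]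
    rfl
  obtain ⟨s, hs⟩ := hχ'surj (Multiplicative.ofAdd 1)
  have hsχ : χ s = Multiplicative.ofAdd 1 := by
    have h1 : χ s = Multiplicative.ofAdd ((ZMod.castHom (dvd_mul_right m r) (ZMod m))
      (χ' s).toAdd) := rfl
    rw [h1, hs, toAdd_ofAdd, map_one]
  have hker : χ.ker ≤ W₀ := by
    intro g hg
    have h1 : cval χ g = 0 := cval_eq_zero_iff.2 hg
    rw [hc] at h1
    obtain ⟨j, hj⟩ := Nat.dvd_of_mod_eq_zero h1
    have h2 := pow_cval_inv_mul_mem hs g
    rw [hχ'ker, hj, pow_mul] at h2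
    have h3 : s ^ m ∈ W₀ := Subgroup.pow_index_mem W₀ s
    have h4 := W₀.mul_mem (W₀.pow_mem h3 j) (hWW₀ h2)
    rwa [mul_inv_cancel_left] at h4
  have hχ𝓛 : χ.ker ∈ 𝓛 := by
    refine LevelSys.mono hW fun g hg => ?_
    rw [← hχ'ker] at hg
    rw [MonoidHom.mem_ker]
    have h1 : χ g = Multiplicative.ofAdd ((ZMod.castHom (dvd_mul_right m r) (ZMod m))
      (χ' g).toAdd) := rfl
    rw [h1, MonoidHom.mem_ker.1 hg, toAdd_one, map_zero]
    rfl
  -- the trivial representation
  let τ : Representation (ZMod p) D (ZMod p) := 1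
  have hτ : ∀ g x, τ g x = x := fun _ _ => rfl
  have h1c : ∀ u, c (1, u) = c (1, 1) := by
    intro u
    have h1 := hcc 1 1 u
    simp only [one_mul] at h1
    exact (add_left_cancel h1).symm
  have hg1 : ∀ g, c (g, 1) = c (1, 1) := by
    intro g
    have h1 := hcc g 1 1
    simp only [mul_one] at h1
    exact add_right_cancel h1
  have hcZ : (fun q => c q - c (1, 1)) ∈ Z2 𝓛 τ := by
    refine ⟨⟨W₀, hW₀, fun g g' s s' hs hs' => ?_⟩, fun g h j => ?_⟩
    · simp only [hc0 g g' s hs s' hs']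
    · have := hcc g h j
      simp only [hτ]
      linear_combination this
  have hcr : ∀ g, ∀ u ∈ χ.ker, (fun q => c q - c (1, 1)) (g, u) = 0 := by
    intro g u hu
    have h1 := hc0 g 1 1 W₀.one_mem u (hker hu)
    simp only [mul_one, one_mul] at h1
    simp only [h1, hg1, sub_self]
  have hcl : ∀ g, ∀ u ∈ χ.ker, (fun q => c q - c (1, 1)) (u, g) = 0 := by
    intro g u hu
    have h1 := hc0 1 g u (hker hu) 1 W₀.one_mem
    simp only [mul_one, one_mul] at h1
    simp only [h1, h1c, sub_self]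
  obtain ⟨a, ha, f, hf, hfa⟩ := exists_carry_of_inflated (ρ := τ) hsχ hχ𝓛 hcZ hcr hcl
  obtain ⟨f', hf', hfa'⟩ := isCob_carry_of_lift (𝓛 := 𝓛) hpr χ χ' hc (by rw [hχ'ker]; exact hW) a
  refine ⟨fun g => f g + f' g + c (1, 1),
    (hf.prodMk hf').comp (fun x => x.1 + x.2 + c (1, 1)), fun g h => ?_⟩
  have e1 := hfa g h
  have e2 := hfa' g h
  simp only [hτ] at e1
  linear_combination e1 + e2

end Abstract

end Fermat.Agent.CFT.Kum
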